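import Mathlib
import Fermat.Agent.Cheb.Defs

/-!
# Pillar P-CFT (S14): shared definitions

Everything is stated for abstract number fields `K ⊆ L` (`[Algebra K L]`).

* `primeClass 𝔮`     : the class of the nonzero prime `𝔮` in `ClassGroup (𝓞 K)`.
* `normClassSubgroup K L` : the subgroup of `ClassGroup (𝓞 K)` generated by the classes of the
  relative norms `relNorm (𝓞 K) 𝔄` of the nonzero ideals `𝔄` of `𝓞 L`.
* `IsFrobAt K L 𝔮 g` : `g ∈ Gal(L/K)` is an arithmetic Frobenius at some prime of `𝓞 L` above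
  the prime `𝔮` of `𝓞 K`.
* `UnramifiedEverywhere K L` : every nonzero prime of `𝓞 K` has ramification index one in `𝓞 L`.
* `upperHalf p` : the set `{c : p / 2 < c < p}` of exponents in Stickelberger's relation.
* `ClassCount F c x` : the number of nonzero integral ideals of norm `≤ x` in the class `c`.
* `classLSeries F χ s` : the `L`-series `∑ χ([I]) N(I)^(-s)` of a character of the class group.
-/

set_option autoImplicit false

open NumberField IsDedekindDomain
open scoped nonZeroDivisors Pointwise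

namespace Fermat.Agent.S14

section ClassGroup

variable (K : Type*) [Field K] [NumberField K]

/-- The class of a nonzero prime ideal. -/
noncomputable def primeClass {K : Type*} [Field K] [NumberField K]
    (𝔮 : HeightOneSpectrum (𝓞 K)) : ClassGroup (𝓞 K) :=
  ClassGroup.mk0 ⟨𝔮.asIdeal, mem_nonZeroDivisors_of_ne_zero 𝔮.ne_bot⟩

variable (L : Type*) [Field L] [NumberField L] [Algebra K L]

/-- The subgroup of the class group of `K` generated by the classes of relative norms of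
nonzero ideals of `𝓞 L`. -/
noncomputable def normClassSubgroup : Subgroup (ClassGroup (𝓞 K)) :=
  Subgroup.closure {c | ∃ (𝔄 : (Ideal (𝓞 L))⁰) (𝔞 : (Ideal (𝓞 K))⁰),
    (𝔞 : Ideal (𝓞 K)) = Ideal.relNorm (𝓞 K) (𝔄 : Ideal (𝓞 L)) ∧ ClassGroup.mk0 𝔞 = c}

/-- `g` is an arithmetic Frobenius at some prime `𝔔` of `𝓞 L` above the prime `𝔮` of `𝓞 K`:
`g x ≡ x ^ N(𝔮) mod 𝔔` for all `x ∈ 𝓞 L`. -/
def IsFrobAt (𝔮 : HeightOneSpectrum (𝓞 K)) (g : Gal(L/K)) : Prop :=
  ∃ 𝔔 : Ideal (𝓞 L), 𝔔.IsPrime ∧ 𝔔.under (𝓞 K) = 𝔮.asIdeal ∧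
    ∀ x : 𝓞 L, g • x - x ^ Ideal.absNorm 𝔮.asIdeal ∈ 𝔔

/-- Every nonzero prime of `𝓞 K` is unramified in `𝓞 L`. -/
def UnramifiedEverywhere : Prop :=
  ∀ 𝔮 : HeightOneSpectrum (𝓞 K), 𝔮.asIdeal.ramificationIdxIn (𝓞 L) = 1

end ClassGroup

/-- The exponents of Stickelberger's relation for the Jacobi sum `J(χ, χ)`. -/
def upperHalf (p : ℕ) : Finset ℕ := Finset.Ioo (p / 2) p

section Analytic

variable (F : Type*) [Field F] [NumberField F]

/-- The number of nonzero integral ideals of norm `≤ x` in the ideal class `c`. -/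
noncomputable def ClassCount (c : ClassGroup (𝓞 F)) (x : ℝ) : ℕ :=
  Nat.card {I : (Ideal (𝓞 F))⁰ // (Ideal.absNorm (I : Ideal (𝓞 F)) : ℝ) ≤ x ∧ ClassGroup.mk0 I = c}

/-- The `L`-series of a character of the class group, for real `s`. -/
noncomputable def classLSeries (χ : ClassGroup (𝓞 F) →* ℂˣ) (s : ℝ) : ℂ :=
  ∑' I : (Ideal (𝓞 F))⁰,
    ((χ (ClassGroup.mk0 I) : ℂˣ) : ℂ) * (((Ideal.absNorm (I : Ideal (𝓞 F)) : ℝ) ^ (-s) : ℝ) : ℂ)

end Analytic

end Fermat.Agent.S14
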