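import Mathlib
import Fermat.Agent.Cheb.Defs
import Fermat.Agent.S14.Defs

/-!
# Pillar P-CFT (S14): frozen interfaces

Every interface is a closed `Prop`.  Module owners prove `theorem <name> : Iface…` (possibly from
other interfaces taken as hypotheses); the assemblies are

* `IfaceCnt → IfaceBdd`                                   (A-BDD)
* `IfaceEP → IfaceBdd → IfaceChebB1 → IfaceA`             (A-INEQ, first inequality)
* `IfaceA → IfaceAux → IfaceD`                            (D, Artin crossing)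
* `IfaceA → IfaceB → IfaceC → IfaceD → Heart`             (F-FIN)
(the P-CHEB theorems are landed: import `Fermat.Agent.Cheb.SplitFinal`, `.Cyclic`, `.WeakChebotarev`
instead of using `IfaceCheb*`).
-/

set_option autoImplicit false

open NumberField IsDedekindDomain
open scoped nonZeroDivisors Pointwise

namespace Fermat.Agent.S14

/-! ## External interfaces (pillar P-CHEB, helper92), restated -/

/-- CHEB.B1: the degree one primes which split completely in a Galois extension `E / K` have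
logarithmic density `1 / [E : K]`. -/
def IfaceChebB1 : Prop :=
  ∀ (K E : Type) [Field K] [NumberField K] [Field E] [NumberField E] [Algebra K E]
    [IsGalois K E],
    Cheb.HasLogAsymp (NumberField.Set.primeIdealZetaSum
      {𝔭 : HeightOneSpectrum (𝓞 K) | Cheb.IsDegOne K 𝔭 ∧ Cheb.SplitsCompletely K E 𝔭})
      (1 / (Module.finrank K E : ℝ))

/-- CHEB.D2: a cyclic extension has degree one inert primes outside any finite set. -/
def IfaceChebD2 : Prop :=
  ∀ (K L : Type) [Field K] [NumberField K] [Field L] [NumberField L] [Algebra K L]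
    [IsGalois K L] [IsCyclic Gal(L/K)] (T : Set (HeightOneSpectrum (𝓞 K))), T.Finite →
    ∃ 𝔭 : HeightOneSpectrum (𝓞 K), 𝔭 ∉ T ∧ Cheb.IsDegOne K 𝔭 ∧ Cheb.IsInert K L 𝔭

/-- CHEB.E1: weak Chebotarev over `ℚ`. -/
def IfaceChebE1 : Prop :=
  ∀ (L : Type) [Field L] [NumberField L] [IsGalois ℚ L] (τ : Gal(L/ℚ)) (S : Finset ℕ),
    ∃ (p : ℕ) (𝔓 : Ideal (𝓞 L)) (k : ℕ), p.Prime ∧ p ∉ S ∧ 𝔓.IsPrime ∧ (p : 𝓞 L) ∈ 𝔓 ∧
      (Ideal.span {(p : ℤ)}).ramificationIdxIn (𝓞 L) = 1 ∧
      Nat.Coprime k (orderOf τ) ∧ IsArithFrobAt ℤ (τ ^ k) 𝔓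

/-! ## A : analytic first inequality -/

/-- A-CNT: two ideal classes contain the same number of integral ideals of norm `≤ x`, up to
`O(x ^ θ)` with `θ < 1`.  (Classically `θ = 1 - 1 / [F : ℚ]`.) -/
def IfaceCnt : Prop :=
  ∀ (F : Type) [Field F] [NumberField F], ∃ C θ : ℝ, θ < 1 ∧
    ∀ (c c' : ClassGroup (𝓞 F)) (x : ℝ), 1 ≤ x →
      |(ClassCount F c x : ℝ) - (ClassCount F c' x : ℝ)| ≤ C * x ^ θ

/-- A-BDD: the `L`-series of a nontrivial character of the class group is bounded on `(1, 2]`. -/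
def IfaceBdd : Prop :=
  ∀ (F : Type) [Field F] [NumberField F] (χ : ClassGroup (𝓞 F) →* ℂˣ), χ ≠ 1 →
    ∃ B : ℝ, ∀ s : ℝ, 1 < s → s ≤ 2 → ‖classLSeries F χ s‖ ≤ B

/-- A-EP: absolute convergence and Euler product of the `L`-series of a character of the class
group, for real `s > 1`. -/
def IfaceEP : Prop :=
  ∀ (F : Type) [Field F] [NumberField F] (χ : ClassGroup (𝓞 F) →* ℂˣ) (s : ℝ), 1 < s →
    Summable (fun I : (Ideal (𝓞 F))⁰ ↦ ((Ideal.absNorm (I : Ideal (𝓞 F)) : ℝ) ^ (-s) : ℝ)) ∧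
    HasProd (fun 𝔓 : HeightOneSpectrum (𝓞 F) ↦
      (1 - ((χ (primeClass 𝔓) : ℂˣ) : ℂ) *
        (((Ideal.absNorm 𝔓.asIdeal : ℝ) ^ (-s) : ℝ) : ℂ))⁻¹) (classLSeries F χ s)

/-- A-INEQ (first inequality): a subgroup of the class group of `F` containing the classes of
all degree one primes (outside a finite set) which split completely in the Galois extension
`M / F` has index at most `[M : F]`. -/
def IfaceA : Prop :=
  ∀ (F M : Type) [Field F] [NumberField F] [Field M] [NumberField M] [Algebra F M]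
    [IsGalois F M] (S' : Subgroup (ClassGroup (𝓞 F)))
    (T₀ : Set (HeightOneSpectrum (𝓞 F))), T₀.Finite →
    (∀ 𝔓 : HeightOneSpectrum (𝓞 F), 𝔓 ∉ T₀ → Cheb.IsDegOne F 𝔓 →
      Cheb.SplitsCompletely F M 𝔓 → primeClass 𝔓 ∈ S') →
    S'.index ≤ Module.finrank F M

/-! ## B : algebraic second inequality -/

/-- (B): for an everywhere unramified cyclic extension `L / K` of odd prime degree, the classes
of norms do not fill the class group of `K`. -/
def IfaceB : Prop :=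
  ∀ (p : ℕ), p.Prime → 3 ≤ p → ∀ (K L : Type) [Field K] [NumberField K] [Field L]
    [NumberField L] [Algebra K L] [IsGalois K L],
    Module.finrank K L = p → UnramifiedEverywhere K L → normClassSubgroup K L ≠ ⊤

/-! ## C : Stickelberger's relation for Jacobi sums -/

/-- (C): for a degree one prime `𝔮 ∤ p` of `ℚ(ζ_p)`, the ideal `∏_{p/2 < c < p} σ_c⁻¹ 𝔮` is
principal (generated by a Jacobi sum), where `σ_c ζ = ζ ^ c`. -/
def IfaceC : Prop :=
  ∀ (p : ℕ), p.Prime → 3 ≤ p → ∀ (K : Type) [Field K] [NumberField K]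
    [IsCyclotomicExtension {p} ℚ K] (ζ : K), IsPrimitiveRoot ζ p →
    ∀ (σ : ℕ → Gal(K/ℚ)), (∀ c ∈ upperHalf p, σ c ζ = ζ ^ c) →
    ∀ 𝔮 : HeightOneSpectrum (𝓞 K), (Ideal.absNorm 𝔮.asIdeal).Prime →
      Ideal.absNorm 𝔮.asIdeal ≠ p →
      (∏ c ∈ upperHalf p, ((σ c)⁻¹ • 𝔮.asIdeal)).IsPrincipal

/-! ## D : Artin crossing -/

/-- (D): in an everywhere unramified cyclic extension `L / K` of degree `p` of `K = ℚ(ζ_p)`,
Galois over `ℚ` with `Gal(K/ℚ)` acting on `Gal(L/K)` through the inverse cyclotomic character,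
for DEGREE ONE primes `𝔮a`, `𝔮b` of `K` over distinct rational primes `qa, qb ≠ p` with
Frobenius `s ≠ 1` and `s ^ k`, the class of `𝔮b` is the `k`-th power of the class of `𝔮a`
modulo classes of norms from `L`. -/
def IfaceD : Prop :=
  ∀ (p : ℕ), p.Prime → 3 ≤ p → ∀ (K L : Type) [Field K] [NumberField K] [Field L]
    [NumberField L] [Algebra K L] [IsGalois K L] [IsGalois ℚ L]
    [IsCyclotomicExtension {p} ℚ K],
    Module.finrank K L = p → UnramifiedEverywhere K L →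
    (∀ (ζ : L) (τ : Gal(L/ℚ)) (g : Gal(L/K)) (a : ℕ), IsPrimitiveRoot ζ p → τ ζ = ζ ^ a →
      (τ * g.restrictScalars ℚ * τ⁻¹) ^ a = g.restrictScalars ℚ) →
    ∀ (𝔮a 𝔮b : HeightOneSpectrum (𝓞 K)) (qa qb : ℕ), qa.Prime → qb.Prime → qa ≠ qb →
      qa ≠ p → qb ≠ p → Ideal.absNorm 𝔮a.asIdeal = qa → Ideal.absNorm 𝔮b.asIdeal = qb →
      ∀ (s : Gal(L/K)) (k : ℕ), s ≠ 1 → IsFrobAt K L 𝔮a s → IsFrobAt K L 𝔮b (s ^ k) →
        primeClass 𝔮b * (primeClass 𝔮a)⁻¹ ^ k ∈ normClassSubgroup K L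

/-- D-AUX: auxiliary primes with prescribed `p`-th power residuosity: for distinct primes
`qa, qb ≠ p` and any exponent `e` there is a prime `r ≡ 1 mod p` outside any finite set such that
`qa` is not a `p`-th power modulo `r` while `qb * qa ^ e` is. -/
def IfaceAux : Prop :=
  ∀ (p : ℕ), p.Prime → 3 ≤ p → ∀ (qa qb e : ℕ), qa.Prime → qb.Prime → qa ≠ qb → qa ≠ p →
    qb ≠ p → ∀ T : Finset ℕ, ∃ r : ℕ, r.Prime ∧ r ∉ T ∧ r % p = 1 ∧
      (¬ ∃ y : ZMod r, y ^ p = (qa : ZMod r)) ∧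
      (∃ y : ZMod r, y ^ p = (qb : ZMod r) * (qa : ZMod r) ^ e)

/-! ## The heart -/

/-- HEART: `ℚ(ζ_p)` has no everywhere unramified cyclic extension `L` of degree `p`, Galois over
`ℚ`, on whose Galois group `Gal(ℚ(ζ_p)/ℚ)` acts through the inverse of the cyclotomic
character: `τ g τ⁻¹ = g ^ (χ(τ)⁻¹)`, stated as `(τ g τ⁻¹) ^ a = g` whenever `τ ζ = ζ ^ a`. -/
def Heart : Prop :=
  ∀ (p : ℕ), p.Prime → 3 ≤ p → ∀ (K L : Type) [Field K] [NumberField K] [Field L]
    [NumberField L] [Algebra K L] [IsGalois K L] [IsGalois ℚ L]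
    [IsCyclotomicExtension {p} ℚ K],
    Module.finrank K L = p → UnramifiedEverywhere K L →
    (∀ (ζ : L) (τ : Gal(L/ℚ)) (g : Gal(L/K)) (a : ℕ), IsPrimitiveRoot ζ p → τ ζ = ζ ^ a →
      (τ * g.restrictScalars ℚ * τ⁻¹) ^ a = g.restrictScalars ℚ) → False

end Fermat.Agent.S14
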