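import Mathlib
import Fermat.Agent.S14.Iface
import Fermat.Agent.Cheb.EulerProduct

/-!
# Pillar P-CFT (S14), module A-BDD: boundedness of `L(s, χ)` on `(1, 2]`

`ifaceBdd_of : IfaceCnt → IfaceBdd`.

For a nontrivial character `χ` of the class group of `F`, the `L`-series
`∑_I χ([I]) N(I)^(-s)` is regrouped by norm into the Dirichlet series `∑_n a_n n^(-s)` with
`a_n = ∑_{N(I) = n} χ([I])` (`ABDD_hasSum`).  Its partial sums are
`∑_{n ≤ x} a_n = ∑_c χ(c) · #{I ∈ c : N(I) ≤ x} = ∑_c χ(c) · (#{I ∈ c : N(I) ≤ x} -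
#{I ∈ 1 : N(I) ≤ x})`, since `∑_c χ(c) = 0`; by `IfaceCnt` they are `O(x ^ θ)` with `θ < 1`
(`ABDD_partial_bound`).  Abel summation (`LSeries_eq_mul_integral`) then gives
`‖L(s, χ)‖ ≤ s · M / (s - θ) ≤ 2 M / (1 - θ)` for `1 < s ≤ 2` (`ABDD_norm_LSeries_le`).
-/

set_option autoImplicit false

open NumberField IsDedekindDomain Filter Topology MeasureTheory
open scoped nonZeroDivisors

namespace Fermat.Agent.S14

/-! ### The analytic step: Abel summation -/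

/-- A Dirichlet series whose partial sums are `≤ M n ^ θ` with `0 ≤ θ < 1` is bounded by
`2 M / (1 - θ)` on `(1, 2]`. -/
theorem ABDD_norm_LSeries_le (f : ℕ → ℂ) {M θ : ℝ} (hθ0 : 0 ≤ θ) (hθ1 : θ < 1)
    (hf : ∀ n : ℕ, 1 ≤ n → ‖∑ k ∈ Finset.Icc 1 n, f k‖ ≤ M * (n : ℝ) ^ θ)
    {s : ℝ} (hs1 : 1 < s) (hs2 : s ≤ 2) (hS : LSeriesSummable f (s : ℂ)) :
    ‖LSeries f (s : ℂ)‖ ≤ 2 * M / (1 - θ) := by
  have hM : 0 ≤ M := by
    have h := (norm_nonneg _).trans (hf 1 le_rfl)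
    simpa using h
  have hO : (fun n ↦ ∑ k ∈ Finset.Icc 1 n, f k) =O[atTop] fun n : ℕ ↦ (n : ℝ) ^ θ := by
    refine Asymptotics.IsBigO.of_bound M ?_
    filter_upwards [eventually_ge_atTop 1] with n hn
    rw [Real.norm_of_nonneg (by positivity)]
    exact hf n hn
  have hsre : θ < (s : ℂ).re := by simpa using hθ1.trans hs1
  rw [LSeries_eq_mul_integral f hθ0 hsre hS hO, norm_mul]
  have h1 : ‖∫ t in Set.Ioi (1 : ℝ), (∑ k ∈ Finset.Icc 1 ⌊t⌋₊, f k) * (t : ℂ) ^ (-((s : ℂ) + 1))‖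
      ≤ ∫ t in Set.Ioi (1 : ℝ), M * t ^ (θ - s - 1) := by
    refine norm_integral_le_of_norm_le ?_ ?_
    · exact (integrableOn_Ioi_rpow_of_lt (by linarith) zero_lt_one).const_mul M
    · filter_upwards [ae_restrict_mem measurableSet_Ioi] with t ht
      have ht1 : (1 : ℝ) < t := ht
      have ht0 : (0 : ℝ) < t := by linarith
      rw [norm_mul, Complex.norm_cpow_eq_rpow_re_of_pos ht0]
      have hfl : 1 ≤ ⌊t⌋₊ := Nat.floor_pos.mpr ht1.le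
      have h2 := hf _ hfl
      have hle : ((⌊t⌋₊ : ℝ)) ^ θ ≤ t ^ θ :=
        Real.rpow_le_rpow (by positivity) (Nat.floor_le ht0.le) hθ0
      have hre : (-((s : ℂ) + 1)).re = -(s + 1) := by simp
      rw [hre]
      calc ‖∑ k ∈ Finset.Icc 1 ⌊t⌋₊, f k‖ * t ^ (-(s + 1))
          ≤ (M * t ^ θ) * t ^ (-(s + 1)) := by
            gcongr
            exact h2.trans (by gcongr)
        _ = M * t ^ (θ - s - 1) := by
            rw [mul_assoc, ← Real.rpow_add ht0]; ring_nf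
  rw [integral_const_mul, integral_Ioi_rpow_of_lt (by linarith) zero_lt_one] at h1
  have hs0 : (0 : ℝ) < s := by linarith
  have hnorm : ‖(s : ℂ)‖ = s := by
    rw [Complex.norm_real, Real.norm_of_nonneg hs0.le]
  rw [hnorm]
  have hpos : 0 < s - θ := by linarith
  have hpos' : 0 < 1 - θ := by linarith
  have h3 : M * (-1 ^ (θ - s - 1 + 1) / (θ - s - 1 + 1)) = M / (s - θ) := by
    rw [Real.one_rpow]
    have : θ - s - 1 + 1 = -(s - θ) := by ring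
    rw [this, neg_div_neg_eq]
    ring
  rw [h3] at h1
  calc s * ‖∫ t in Set.Ioi (1 : ℝ), (∑ k ∈ Finset.Icc 1 ⌊t⌋₊, f k) * (t : ℂ) ^ (-((s : ℂ) + 1))‖
      ≤ s * (M / (s - θ)) := by gcongr
    _ ≤ 2 * (M / (1 - θ)) := by
        gcongr
    _ = 2 * M / (1 - θ) := by ring

section ABDD

variable (F : Type) [Field F] [NumberField F] (χ : ClassGroup (𝓞 F) →* ℂˣ)

/-! ### Regrouping the `L`-series by norm -/

/-- The values of a character of the class group have norm one. -/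
theorem ABDD_norm_chi (c : ClassGroup (𝓞 F)) : ‖((χ c : ℂˣ) : ℂ)‖ = 1 := by
  have h : IsOfFinOrder c := isOfFinOrder_of_finite c
  have h2 : IsOfFinOrder (χ c) := χ.isOfFinOrder h
  have h3 : IsOfFinOrder ((χ c : ℂˣ) : ℂ) := (Units.coeHom ℂ).isOfFinOrder h2
  exact h3.norm_eq_one

/-- The `L`-series of `χ` converges absolutely for real `s > 1`. -/
theorem ABDD_summable {s : ℝ} (hs : 1 < s) :
    Summable (fun I : (Ideal (𝓞 F))⁰ ↦ ((χ (ClassGroup.mk0 I) : ℂˣ) : ℂ) *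
      (((Ideal.absNorm (I : Ideal (𝓞 F)) : ℝ) ^ (-s) : ℝ) : ℂ)) := by
  refine Summable.of_norm ?_
  have h := (Cheb.A1_summable_phi F hs).subtype ((Ideal (𝓞 F))⁰ : Set (Ideal (𝓞 F)))
  refine h.congr fun I ↦ ?_
  rw [norm_mul, ABDD_norm_chi, one_mul, Complex.norm_real, Real.norm_of_nonneg (by positivity)]
  rfl

/-- The coefficients of the `L`-series of `χ`, regrouped by norm. -/
noncomputable def ABDD_coeff (n : ℕ) : ℂ :=
  ∑' I : (fun I : (Ideal (𝓞 F))⁰ ↦ Ideal.absNorm (I : Ideal (𝓞 F))) ⁻¹' {n},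
    ((χ (ClassGroup.mk0 I.1) : ℂˣ) : ℂ)

/-- `classLSeries F χ s` is the sum of the Dirichlet series with coefficients `ABDD_coeff`. -/
theorem ABDD_hasSum {s : ℝ} (hs : 1 < s) :
    HasSum (LSeries.term (ABDD_coeff F χ) (s : ℂ)) (classLSeries F χ s) := by
  have h := (ABDD_summable F χ hs).hasSum.tsum_fiberwise
    (fun I : (Ideal (𝓞 F))⁰ ↦ Ideal.absNorm (I : Ideal (𝓞 F)))
  have h2 : (fun n : ℕ ↦ ∑' I : (fun I : (Ideal (𝓞 F))⁰ ↦
      Ideal.absNorm (I : Ideal (𝓞 F))) ⁻¹' {n}, ((χ (ClassGroup.mk0 I.1) : ℂˣ) : ℂ) *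
      (((Ideal.absNorm (I.1 : Ideal (𝓞 F)) : ℝ) ^ (-s) : ℝ) : ℂ)) =
      LSeries.term (ABDD_coeff F χ) (s : ℂ) := by
    funext n
    rcases eq_or_ne n 0 with rfl | hn
    · rw [LSeries.term_zero]
      have hemp : IsEmpty ((fun I : (Ideal (𝓞 F))⁰ ↦
          Ideal.absNorm (I : Ideal (𝓞 F))) ⁻¹' {0}) := by
        refine ⟨fun ⟨I, hI⟩ ↦ ?_⟩
        have h0 : Ideal.absNorm (I : Ideal (𝓞 F)) = 0 := hI
        rw [Ideal.absNorm_eq_zero_iff] at h0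
        exact nonZeroDivisors.coe_ne_zero I h0
      exact tsum_empty
    · rw [LSeries.term_of_ne_zero hn]
      have hterm : ∀ I : (fun I : (Ideal (𝓞 F))⁰ ↦
          Ideal.absNorm (I : Ideal (𝓞 F))) ⁻¹' {n},
          ((χ (ClassGroup.mk0 I.1) : ℂˣ) : ℂ) *
            (((Ideal.absNorm (I.1 : Ideal (𝓞 F)) : ℝ) ^ (-s) : ℝ) : ℂ) =
          ((χ (ClassGroup.mk0 I.1) : ℂˣ) : ℂ) * ((n : ℂ) ^ (s : ℂ))⁻¹ := by
        rintro ⟨I, hI⟩
        have h0 : Ideal.absNorm (I : Ideal (𝓞 F)) = n := hI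
        simp only [h0]
        rw [Real.rpow_neg (Nat.cast_nonneg n), Complex.ofReal_inv,
          Complex.ofReal_cpow (Nat.cast_nonneg n)]
        simp
      simp_rw [hterm]
      rw [tsum_mul_right, div_eq_mul_inv]
      rfl
  rw [h2] at h
  exact h

/-! ### The partial sums of the coefficients -/

/-- The finite set of nonzero ideals of norm at most `n`. -/
noncomputable def ABDD_ball (n : ℕ) : Finset (Ideal (𝓞 F))⁰ :=
  (Ideal.finite_setOfPred_absNorm_le₀ (S := 𝓞 F) n).toFinset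

theorem ABDD_mem_ball (n : ℕ) (I : (Ideal (𝓞 F))⁰) :
    I ∈ ABDD_ball F n ↔ Ideal.absNorm (I : Ideal (𝓞 F)) ≤ n := by
  simp [ABDD_ball]

theorem ABDD_one_le_absNorm (I : (Ideal (𝓞 F))⁰) : 1 ≤ Ideal.absNorm (I : Ideal (𝓞 F)) := by
  have h0 : Ideal.absNorm (I : Ideal (𝓞 F)) ≠ 0 := by
    rw [Ne, Ideal.absNorm_eq_zero_iff]
    exact nonZeroDivisors.coe_ne_zero I
  omega

open scoped Classical in
theorem ABDD_coeff_eq_sum {n k : ℕ} (hk : k ≤ n) :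
    ABDD_coeff F χ k = ∑ I ∈ (ABDD_ball F n).filter
      (fun I : (Ideal (𝓞 F))⁰ ↦ Ideal.absNorm (I : Ideal (𝓞 F)) = k),
      ((χ (ClassGroup.mk0 I) : ℂˣ) : ℂ) := by
  have hset : (fun I : (Ideal (𝓞 F))⁰ ↦ Ideal.absNorm (I : Ideal (𝓞 F))) ⁻¹' {k} =
      (((ABDD_ball F n).filter
        (fun I : (Ideal (𝓞 F))⁰ ↦ Ideal.absNorm (I : Ideal (𝓞 F)) = k) :
          Finset (Ideal (𝓞 F))⁰) : Set (Ideal (𝓞 F))⁰) := by
    ext I
    simp only [Set.mem_preimage, Set.mem_singleton_iff, Finset.coe_filter, Set.mem_ofPred_eq,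
      ABDD_mem_ball]
    constructor
    · intro h; exact ⟨h ▸ hk, h⟩
    · intro h; exact h.2
  unfold ABDD_coeff
  rw [hset]
  exact Finset.tsum_subtype' ((ABDD_ball F n).filter
      (fun I : (Ideal (𝓞 F))⁰ ↦ Ideal.absNorm (I : Ideal (𝓞 F)) = k))
    (fun I : (Ideal (𝓞 F))⁰ ↦ ((χ (ClassGroup.mk0 I) : ℂˣ) : ℂ))

/-- `∑_{k ≤ n} a_k = ∑_{N(I) ≤ n} χ([I])`. -/
theorem ABDD_sum_coeff (n : ℕ) :
    ∑ k ∈ Finset.Icc 1 n, ABDD_coeff F χ k =
      ∑ I ∈ ABDD_ball F n, ((χ (ClassGroup.mk0 I) : ℂˣ) : ℂ) := by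
  classical
  rw [← Finset.sum_fiberwise_of_maps_to (s := ABDD_ball F n) (t := Finset.Icc 1 n)
    (g := fun I ↦ Ideal.absNorm (I : Ideal (𝓞 F)))]
  · refine Finset.sum_congr rfl fun k hk ↦ ?_
    exact ABDD_coeff_eq_sum F χ (Finset.mem_Icc.mp hk).2
  · intro I hI
    exact Finset.mem_Icc.mpr ⟨ABDD_one_le_absNorm F I, (ABDD_mem_ball F n I).mp hI⟩

open scoped Classical in
theorem ABDD_classCount (c : ClassGroup (𝓞 F)) (n : ℕ) :
    ClassCount F c (n : ℝ) =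
      (Finset.filter (fun I ↦ ClassGroup.mk0 I = c) (ABDD_ball F n)).card := by
  unfold ClassCount
  refine Nat.subtype_card _ fun I ↦ ?_
  simp [ABDD_mem_ball]

/-- `∑_{N(I) ≤ n} χ([I]) = ∑_c χ(c) · #{I ∈ c : N(I) ≤ n}`. -/
theorem ABDD_sum_ball (n : ℕ) :
    ∑ I ∈ ABDD_ball F n, ((χ (ClassGroup.mk0 I) : ℂˣ) : ℂ) =
      ∑ c : ClassGroup (𝓞 F), ((χ c : ℂˣ) : ℂ) * (ClassCount F c (n : ℝ) : ℂ) := by
  classical
  rw [← Finset.sum_fiberwise (s := ABDD_ball F n) (g := fun I ↦ ClassGroup.mk0 I)]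
  refine Finset.sum_congr rfl fun c _ ↦ ?_
  rw [ABDD_classCount, Finset.sum_congr rfl (g := fun _ ↦ ((χ c : ℂˣ) : ℂ)), Finset.sum_const,
    nsmul_eq_mul, mul_comm]
  intro I hI
  rw [(Finset.mem_filter.mp hI).2]

/-- Orthogonality: the values of a nontrivial character sum to zero. -/
theorem ABDD_sum_chi (hχ : χ ≠ 1) : ∑ c : ClassGroup (𝓞 F), ((χ c : ℂˣ) : ℂ) = 0 := by
  classical
  have h : (Units.coeHom ℂ).comp χ ≠ 1 := by
    intro h
    apply hχ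
    ext c
    have := DFunLike.congr_fun h c
    simpa using this
  exact sum_hom_units_eq_zero ((Units.coeHom ℂ).comp χ) h

/-- The partial sums of the coefficients are `O(n ^ θ)`. -/
theorem ABDD_partial_bound (hχ : χ ≠ 1) {C θ : ℝ}
    (hC : ∀ (c c' : ClassGroup (𝓞 F)) (x : ℝ), 1 ≤ x →
      |(ClassCount F c x : ℝ) - (ClassCount F c' x : ℝ)| ≤ C * x ^ θ)
    (n : ℕ) (hn : 1 ≤ n) :
    ‖∑ k ∈ Finset.Icc 1 n, ABDD_coeff F χ k‖ ≤
      (Fintype.card (ClassGroup (𝓞 F)) * C) * (n : ℝ) ^ θ := by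
  classical
  rw [ABDD_sum_coeff, ABDD_sum_ball]
  have h1 : ∑ c : ClassGroup (𝓞 F), ((χ c : ℂˣ) : ℂ) * (ClassCount F c (n : ℝ) : ℂ) =
      ∑ c : ClassGroup (𝓞 F), ((χ c : ℂˣ) : ℂ) *
        (((ClassCount F c (n : ℝ) : ℝ) - (ClassCount F 1 (n : ℝ) : ℝ) : ℝ) : ℂ) := by
    have h2 : ∀ c : ClassGroup (𝓞 F), ((χ c : ℂˣ) : ℂ) *
        (((ClassCount F c (n : ℝ) : ℝ) - (ClassCount F 1 (n : ℝ) : ℝ) : ℝ) : ℂ) =
        ((χ c : ℂˣ) : ℂ) * (ClassCount F c (n : ℝ) : ℂ) -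
          ((χ c : ℂˣ) : ℂ) * (ClassCount F 1 (n : ℝ) : ℂ) := by
      intro c; push_cast; ring
    simp_rw [h2]
    rw [Finset.sum_sub_distrib, ← Finset.sum_mul, ABDD_sum_chi F χ hχ, zero_mul, sub_zero]
  rw [h1]
  have hn' : (1 : ℝ) ≤ (n : ℝ) := by exact_mod_cast hn
  calc ‖∑ c : ClassGroup (𝓞 F), ((χ c : ℂˣ) : ℂ) *
        (((ClassCount F c (n : ℝ) : ℝ) - (ClassCount F 1 (n : ℝ) : ℝ) : ℝ) : ℂ)‖
      ≤ ∑ c : ClassGroup (𝓞 F), ‖((χ c : ℂˣ) : ℂ) *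
        (((ClassCount F c (n : ℝ) : ℝ) - (ClassCount F 1 (n : ℝ) : ℝ) : ℝ) : ℂ)‖ :=
        norm_sum_le _ _
    _ ≤ ∑ _c : ClassGroup (𝓞 F), C * (n : ℝ) ^ θ := by
        refine Finset.sum_le_sum fun c _ ↦ ?_
        rw [norm_mul, ABDD_norm_chi, one_mul, Complex.norm_real, Real.norm_eq_abs]
        exact hC c 1 n hn'
    _ = (Fintype.card (ClassGroup (𝓞 F)) * C) * (n : ℝ) ^ θ := by
        rw [Finset.sum_const, Finset.card_univ, nsmul_eq_mul]; ring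

/-! ### The bound -/

/-- The quantitative form of A-BDD for a single field and character: from the counting bound
`|#{I ∈ c : N(I) ≤ x} - #{I ∈ c' : N(I) ≤ x}| ≤ C x ^ θ` (`θ < 1`), the `L`-series of a
nontrivial character is bounded on `(1, 2]` by `2 h max(C, 0) / (1 - max(θ, 0))`. -/
theorem ABDD_bound (hχ : χ ≠ 1) {C θ : ℝ} (hθ : θ < 1)
    (hC : ∀ (c c' : ClassGroup (𝓞 F)) (x : ℝ), 1 ≤ x →
      |(ClassCount F c x : ℝ) - (ClassCount F c' x : ℝ)| ≤ C * x ^ θ)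
    {s : ℝ} (hs1 : 1 < s) (hs2 : s ≤ 2) :
    ‖classLSeries F χ s‖ ≤
      2 * (Fintype.card (ClassGroup (𝓞 F)) * max C 0) / (1 - max θ 0) := by
  have hC' : ∀ (c c' : ClassGroup (𝓞 F)) (x : ℝ), 1 ≤ x →
      |(ClassCount F c x : ℝ) - (ClassCount F c' x : ℝ)| ≤ max C 0 * x ^ max θ 0 := by
    intro c c' x hx
    have hx0 : (0 : ℝ) ≤ x := by linarith
    have h1 : x ^ θ ≤ x ^ max θ 0 := Real.rpow_le_rpow_of_exponent_le hx (le_max_left _ _)
    have h2 : (0 : ℝ) ≤ x ^ θ := Real.rpow_nonneg hx0 _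
    calc |(ClassCount F c x : ℝ) - (ClassCount F c' x : ℝ)| ≤ C * x ^ θ := hC c c' x hx
      _ ≤ max C 0 * x ^ θ := mul_le_mul_of_nonneg_right (le_max_left _ _) h2
      _ ≤ max C 0 * x ^ max θ 0 := mul_le_mul_of_nonneg_left h1 (le_max_right _ _)
  have hsum := ABDD_hasSum F χ hs1
  have hL : classLSeries F χ s = LSeries (ABDD_coeff F χ) (s : ℂ) := hsum.tsum_eq.symm
  rw [hL]
  exact ABDD_norm_LSeries_le (ABDD_coeff F χ) (le_max_right _ _) (max_lt hθ zero_lt_one)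
    (fun n hn ↦ ABDD_partial_bound F χ hχ hC' n hn) hs1 hs2 hsum.summable

end ABDD

/-- **A-BDD**: the counting interface implies that the `L`-series of a nontrivial character of
the class group is bounded on `(1, 2]`. -/
theorem ifaceBdd_of : IfaceCnt → IfaceBdd := by
  intro hcnt F _ _ χ hχ
  obtain ⟨C, θ, hθ, hC⟩ := hcnt F
  exact ⟨2 * (Fintype.card (ClassGroup (𝓞 F)) * max C 0) / (1 - max θ 0),
    fun s hs1 hs2 ↦ ABDD_bound F χ hχ hθ hC hs1 hs2⟩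

end Fermat.Agent.S14
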