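import Mathlib
import Fermat.Agent.S14.Iface
import Fermat.Agent.Cheb.EulerProductGen

/-!
# Pillar P-CFT (S14), module A-EP: Euler product of the class group `L`-series

For a character `χ` of the class group of a number field `F` and real `s > 1`:

* `∑_I N(I)^(-s)` (sum over the nonzero ideals) converges;
* `classLSeries F χ s = ∏_𝔓 (1 - χ([𝔓]) N(𝔓)^(-s))⁻¹`.

This is `Fermat.Agent.Cheb.A1_hasProd_twisted` applied to the extension by zero of `χ ∘ mk0`.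

* `ifaceEP : IfaceEP`.
-/

set_option autoImplicit false

open NumberField IsDedekindDomain Filter Topology
open scoped nonZeroDivisors

namespace Fermat.Agent.S14

section AEP

variable (F : Type*) [Field F] [NumberField F]

/-- The character `χ` of the class group, as a function on all ideals (zero at the zero
ideal). -/
noncomputable def AEP_ext (χ : ClassGroup (𝓞 F) →* ℂˣ) (I : Ideal (𝓞 F)) : ℂ :=
  open Classical in
  if h : I = ⊥ then 0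
  else ((χ (ClassGroup.mk0 ⟨I, mem_nonZeroDivisors_of_ne_zero h⟩) : ℂˣ) : ℂ)

theorem AEP_ext_bot (χ : ClassGroup (𝓞 F) →* ℂˣ) : AEP_ext F χ ⊥ = 0 := by
  simp [AEP_ext]

theorem AEP_ext_of_ne (χ : ClassGroup (𝓞 F) →* ℂˣ) {I : Ideal (𝓞 F)} (h : I ≠ ⊥) :
    AEP_ext F χ I =
      ((χ (ClassGroup.mk0 ⟨I, mem_nonZeroDivisors_of_ne_zero h⟩) : ℂˣ) : ℂ) := by
  simp [AEP_ext, h]

omit [NumberField F] in
theorem AEP_ne_bot (I : (Ideal (𝓞 F))⁰) : (I : Ideal (𝓞 F)) ≠ ⊥ :=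
  nonZeroDivisors.coe_ne_zero I

theorem AEP_ext_coe (χ : ClassGroup (𝓞 F) →* ℂˣ) (I : (Ideal (𝓞 F))⁰) :
    AEP_ext F χ (I : Ideal (𝓞 F)) = ((χ (ClassGroup.mk0 I) : ℂˣ) : ℂ) := by
  rw [AEP_ext_of_ne F χ (AEP_ne_bot F I)]

theorem AEP_ext_prime (χ : ClassGroup (𝓞 F) →* ℂˣ) (𝔓 : HeightOneSpectrum (𝓞 F)) :
    AEP_ext F χ 𝔓.asIdeal = ((χ (primeClass 𝔓) : ℂˣ) : ℂ) := by
  rw [AEP_ext_of_ne F χ 𝔓.ne_bot]
  rfl

theorem AEP_ext_one (χ : ClassGroup (𝓞 F) →* ℂˣ) : AEP_ext F χ 1 = 1 := by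
  have h := AEP_ext_coe F χ 1
  rw [map_one, map_one] at h
  simpa using h

theorem AEP_ext_mul (χ : ClassGroup (𝓞 F) →* ℂˣ) (I J : Ideal (𝓞 F)) :
    AEP_ext F χ (I * J) = AEP_ext F χ I * AEP_ext F χ J := by
  by_cases hI : I = ⊥
  · subst hI
    simp [AEP_ext_bot]
  by_cases hJ : J = ⊥
  · subst hJ
    simp [AEP_ext_bot]
  have hIJ : I * J ≠ ⊥ := mul_ne_zero hI hJ
  rw [AEP_ext_of_ne F χ hIJ, AEP_ext_of_ne F χ hI, AEP_ext_of_ne F χ hJ, ← Units.val_mul,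
    ← map_mul, ← map_mul]
  rfl

/-- The values of a character of the (finite) class group have norm one. -/
theorem AEP_norm_char (χ : ClassGroup (𝓞 F) →* ℂˣ) (c : ClassGroup (𝓞 F)) :
    ‖((χ c : ℂˣ) : ℂ)‖ = 1 := by
  have hpow : ((χ c : ℂˣ) : ℂ) ^ Fintype.card (ClassGroup (𝓞 F)) = 1 := by
    rw [← Units.val_pow_eq_pow_val, ← map_pow, pow_card_eq_one, map_one, Units.val_one]
  exact Complex.norm_eq_one_of_pow_eq_one hpow Fintype.card_ne_zero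

theorem AEP_ext_norm_le (χ : ClassGroup (𝓞 F) →* ℂˣ) (I : Ideal (𝓞 F)) :
    ‖AEP_ext F χ I‖ ≤ 1 := by
  by_cases hI : I = ⊥
  · subst hI
    simp [AEP_ext_bot]
  · rw [AEP_ext_of_ne F χ hI, AEP_norm_char]

theorem AEP_cpow_eq (n : ℕ) (s : ℝ) :
    ((n : ℕ) : ℂ) ^ (-(s : ℂ)) = ((((n : ℝ) ^ (-s) : ℝ)) : ℂ) := by
  rw [Complex.ofReal_cpow (Nat.cast_nonneg n), Complex.ofReal_neg, Complex.ofReal_natCast]

/-- Absolute convergence of `∑_I N(I)^(-s)` over the nonzero ideals, for real `s > 1`. -/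
theorem AEP_summable {s : ℝ} (hs : 1 < s) :
    Summable (fun I : (Ideal (𝓞 F))⁰ ↦ ((Ideal.absNorm (I : Ideal (𝓞 F)) : ℝ) ^ (-s) : ℝ)) :=
  (Cheb.A1_summable_phi F hs).comp_injective Subtype.val_injective

/-- The class group `L`-series as a sum over all ideals. -/
theorem AEP_classLSeries_eq (χ : ClassGroup (𝓞 F) →* ℂˣ) (s : ℝ) :
    classLSeries F χ s =
      ∑' I : Ideal (𝓞 F), AEP_ext F χ I * ((Ideal.absNorm I : ℕ) : ℂ) ^ (-(s : ℂ)) := by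
  unfold classLSeries
  have hinj : Function.Injective (Subtype.val : (Ideal (𝓞 F))⁰ → Ideal (𝓞 F)) :=
    Subtype.val_injective
  rw [← hinj.tsum_eq (f := fun I : Ideal (𝓞 F) ↦
    AEP_ext F χ I * ((Ideal.absNorm I : ℕ) : ℂ) ^ (-(s : ℂ)))]
  · refine tsum_congr fun I ↦ ?_
    rw [AEP_ext_coe, AEP_cpow_eq]
  · intro I hI
    rw [Function.mem_support] at hI
    have hI0 : I ≠ ⊥ := by
      rintro rfl
      exact hI (by simp [AEP_ext_bot])
    exact ⟨⟨I, mem_nonZeroDivisors_of_ne_zero hI0⟩, rfl⟩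

/-- **Euler product of the class group `L`-series**, real `s > 1`. -/
theorem AEP_hasProd (χ : ClassGroup (𝓞 F) →* ℂˣ) {s : ℝ} (hs : 1 < s) :
    HasProd (fun 𝔓 : HeightOneSpectrum (𝓞 F) ↦
      (1 - ((χ (primeClass 𝔓) : ℂˣ) : ℂ) *
        (((Ideal.absNorm 𝔓.asIdeal : ℝ) ^ (-s) : ℝ) : ℂ))⁻¹) (classLSeries F χ s) := by
  have hs' : 1 < ((s : ℂ)).re := by simpa using hs
  have h := (Cheb.A1_hasProd_twisted F (AEP_ext F χ) (AEP_ext_one F χ) (AEP_ext_mul F χ)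
    (AEP_ext_norm_le F χ) hs').2
  rw [AEP_classLSeries_eq]
  have hfun : (fun 𝔓 : HeightOneSpectrum (𝓞 F) ↦
      (1 - ((χ (primeClass 𝔓) : ℂˣ) : ℂ) *
        (((Ideal.absNorm 𝔓.asIdeal : ℝ) ^ (-s) : ℝ) : ℂ))⁻¹) =
      fun 𝔓 : HeightOneSpectrum (𝓞 F) ↦
        (1 - AEP_ext F χ 𝔓.asIdeal * ((Ideal.absNorm 𝔓.asIdeal : ℕ) : ℂ) ^ (-(s : ℂ)))⁻¹ := by
    funext 𝔓
    rw [AEP_ext_prime, AEP_cpow_eq]
  rw [hfun]
  exact h

end AEP

/-- **A-EP**: absolute convergence and Euler product of the `L`-series of a character of the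
class group. -/
theorem ifaceEP : IfaceEP := fun F _ _ χ _ hs ↦ ⟨AEP_summable F hs, AEP_hasProd F χ hs⟩

end Fermat.Agent.S14
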