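import Mathlib
import Fermat.Agent.S14.Iface
import Fermat.Agent.Cheb.LogAsymp
import Fermat.Agent.Cheb.EulerProduct
import Fermat.Agent.Cheb.LogZeta
import Fermat.Agent.Cheb.SplitFinal

/-!
# Pillar P-CFT (S14), module A-INEQ: the first inequality

`ifaceA_of : IfaceEP → IfaceBdd → IfaceA`.

Let `S'` be a subgroup of the class group of `F` containing the classes of almost all degree one
primes which split completely in the Galois extension `M / F`, `Y = Cl(F) / S'`, `h = |Y|`,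
`n = [M : F]`.  For real `s > 1` put `Z(s) = ∏_ψ L(s, ψ ∘ mk)`, the product over all characters
`ψ : Y → ℂˣ`.

* By orthogonality of characters and the Taylor series of `log`, every Euler factor of `Z` is
  `exp a` with `a ≥ 0` real, and `a ≥ h * N𝔓 ^ (-s)` when the class of `𝔓` lies in `S'`.
  Hence `h * ∑_{𝔓 good} N𝔓 ^ (-s) ≤ log ‖Z(s)‖`.
* `‖Z(s)‖ ≤ ζ_F(s) * B` with `B` independent of `s` (`IfaceBdd` for `ψ ≠ 1`).
* `∑_{𝔓 good} N𝔓 ^ (-s) = (1 / n) log (1 / (s - 1)) + O(1)` and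
  `log ζ_F(s) = log (1 / (s - 1)) + O(1)` (pillar CHEB), so `h ≤ n`.
-/

set_option autoImplicit false
set_option linter.style.haveILetI false
set_option linter.unusedSectionVars false

open NumberField IsDedekindDomain
open scoped nonZeroDivisors

namespace Fermat.Agent.S14

namespace AIneq

/-! ### Characters of a finite abelian group -/

section chars

variable (Y : Type*) [CommGroup Y] [Finite Y]

theorem hasEnoughRoots : HasEnoughRootsOfUnity ℂ (Monoid.exponent Y) := by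
  haveI : NeZero ((Monoid.exponent Y : ℕ) : ℂ) :=
    ⟨by exact_mod_cast Monoid.exponent_ne_zero_of_finite (G := Y)⟩
  infer_instance

theorem finite_chars : Finite (Y →* ℂˣ) := by
  haveI := hasEnoughRoots Y
  apply Nat.finite_of_card_ne_zero
  rw [CommGroup.card_monoidHom_of_hasEnoughRootsOfUnity Y ℂ]
  exact Nat.card_pos.ne'

theorem card_chars [Fintype (Y →* ℂˣ)] : Fintype.card (Y →* ℂˣ) = Nat.card Y := by
  haveI := hasEnoughRoots Y
  rw [← Nat.card_eq_fintype_card, CommGroup.card_monoidHom_of_hasEnoughRootsOfUnity Y ℂ]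

/-- Orthogonality of characters. -/
theorem sum_chars [Fintype (Y →* ℂˣ)] [DecidableEq Y] (y : Y) :
    ∑ ψ : Y →* ℂˣ, ((ψ y : ℂˣ) : ℂ) = if y = 1 then (Nat.card Y : ℂ) else 0 := by
  haveI := hasEnoughRoots Y
  split_ifs with h
  · subst h
    simp [card_chars]
  · obtain ⟨φ, hφ⟩ := CommGroup.exists_apply_ne_one_of_hasEnoughRootsOfUnity Y ℂ h
    have h1 : ((φ y : ℂˣ) : ℂ) * ∑ ψ : Y →* ℂˣ, ((ψ y : ℂˣ) : ℂ) =
        ∑ ψ : Y →* ℂˣ, ((ψ y : ℂˣ) : ℂ) := by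
      rw [Finset.mul_sum]
      refine Fintype.sum_equiv (Equiv.mulLeft φ) _ _ fun ψ ↦ ?_
      simp
    have h2 : ((φ y : ℂˣ) : ℂ) ≠ 1 := fun h' ↦ hφ (Units.ext h')
    have h3 : (((φ y : ℂˣ) : ℂ) - 1) * ∑ ψ : Y →* ℂˣ, ((ψ y : ℂˣ) : ℂ) = 0 := by
      rw [sub_mul, h1, one_mul, sub_self]
    rcases mul_eq_zero.mp h3 with h4 | h4
    · exact absurd (sub_eq_zero.mp h4) h2
    · exact h4

theorem norm_char_apply (ψ : Y →* ℂˣ) (y : Y) : ‖((ψ y : ℂˣ) : ℂ)‖ = 1 := by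
  apply Complex.norm_eq_one_of_pow_eq_one (n := Nat.card Y)
  · rw [← Units.val_pow_eq_pow_val, ← map_pow, pow_card_eq_one', map_one, Units.val_one]
  · exact Nat.card_pos.ne'

end chars

/-! ### The Euler factor of the product of all `L`-series -/

theorem inv_one_sub_eq_exp {z : ℂ} (hz : ‖z‖ < 1) :
    (1 - z)⁻¹ = Complex.exp (-Complex.log (1 - z)) := by
  have h : 1 - z ≠ 0 := by
    intro h0
    have hz1 : z = 1 := (sub_eq_zero.mp h0).symm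
    rw [hz1, norm_one] at hz
    exact lt_irrefl _ hz
  rw [Complex.exp_neg, Complex.exp_log h]

/-- The product over all characters `ψ` of `(1 - ψ(y) t)⁻¹` is `exp a` for a real `a ≥ 0`,
and `a ≥ |Y| t` if `y = 1`. -/
theorem prod_chars_eq_exp (Y : Type*) [CommGroup Y] [Finite Y] [Fintype (Y →* ℂˣ)] (y : Y)
    {t : ℝ} (ht0 : 0 ≤ t) (ht1 : t < 1) :
    ∃ a : ℝ, 0 ≤ a ∧ (y = 1 → (Nat.card Y : ℝ) * t ≤ a) ∧
      ∏ ψ : Y →* ℂˣ, (1 - ((ψ y : ℂˣ) : ℂ) * (t : ℂ))⁻¹ = ((Real.exp a : ℝ) : ℂ) := by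
  classical
  set c : ℕ → ℝ := fun m ↦ (if y ^ m = 1 then (Nat.card Y : ℝ) else 0) * t ^ m / m with hc
  have hc0 : ∀ m, 0 ≤ c m := by
    intro m
    simp only [hc]
    split_ifs <;> positivity
  have hnorm : ∀ ψ : Y →* ℂˣ, ‖((ψ y : ℂˣ) : ℂ) * (t : ℂ)‖ < 1 := by
    intro ψ
    rw [norm_mul, norm_char_apply, one_mul, Complex.norm_real, Real.norm_of_nonneg ht0]
    exact ht1
  have hsum : HasSum (fun m : ℕ ↦ ∑ ψ : Y →* ℂˣ, (((ψ y : ℂˣ) : ℂ) * (t : ℂ)) ^ m / m)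
      (∑ ψ : Y →* ℂˣ, -Complex.log (1 - ((ψ y : ℂˣ) : ℂ) * (t : ℂ))) :=
    hasSum_sum fun ψ _ ↦ Complex.hasSum_taylorSeries_neg_log (hnorm ψ)
  have hterm : ∀ m : ℕ,
      ∑ ψ : Y →* ℂˣ, (((ψ y : ℂˣ) : ℂ) * (t : ℂ)) ^ m / m = ((c m : ℝ) : ℂ) := by
    intro m
    have h1 : ∑ ψ : Y →* ℂˣ, ((ψ y : ℂˣ) : ℂ) ^ m =
        if y ^ m = 1 then (Nat.card Y : ℂ) else 0 := by
      rw [← sum_chars Y (y ^ m)]
      refine Finset.sum_congr rfl fun ψ _ ↦ ?_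
      rw [map_pow, Units.val_pow_eq_pow_val]
    simp only [mul_pow, ← Finset.sum_div, ← Finset.sum_mul, h1, hc]
    split_ifs <;> push_cast <;> ring
  simp_rw [hterm] at hsum
  set w : ℂ := ∑ ψ : Y →* ℂˣ, -Complex.log (1 - ((ψ y : ℂˣ) : ℂ) * (t : ℂ)) with hw
  obtain ⟨hre, him⟩ := (Complex.hasSum_iff _ _).mp hsum
  simp only [Complex.ofReal_re] at hre
  simp only [Complex.ofReal_im] at him
  have him0 : w.im = 0 := him.unique hasSum_zero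
  have hwre : w = ((w.re : ℝ) : ℂ) := by
    apply Complex.ext
    · simp
    · simp [him0]
  refine ⟨w.re, hre.nonneg hc0, fun hy ↦ ?_, ?_⟩
  · have h1 : c 1 ≤ w.re := le_hasSum hre 1 fun j _ ↦ hc0 j
    have h2 : c 1 = (Nat.card Y : ℝ) * t := by
      simp [hc, hy]
    rw [← h2]
    exact h1
  · rw [Complex.ofReal_exp, ← hwre, hw, Complex.exp_sum]
    exact Finset.prod_congr rfl fun ψ _ ↦ inv_one_sub_eq_exp (hnorm ψ)

/-! ### Infinite products of factors `exp a`, `a ≥ 0` -/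

theorem exp_sum_le_norm_of_hasProd {ι : Type*} {a : ι → ℝ} (ha : ∀ i, 0 ≤ a i) {Z : ℂ}
    (h : HasProd (fun i ↦ ((Real.exp (a i) : ℝ) : ℂ)) Z) (A : Finset ι) :
    Real.exp (∑ i ∈ A, a i) ≤ ‖Z‖ := by
  classical
  have h0 : Filter.Tendsto (fun B : Finset ι ↦ ∏ i ∈ B, ((Real.exp (a i) : ℝ) : ℂ))
      Filter.atTop (nhds Z) := h
  have h1 : Filter.Tendsto (fun B : Finset ι ↦ ‖∏ i ∈ B, ((Real.exp (a i) : ℝ) : ℂ)‖)
      Filter.atTop (nhds ‖Z‖) := (continuous_norm.tendsto _).comp h0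
  have h2 : ∀ B : Finset ι, ‖∏ i ∈ B, ((Real.exp (a i) : ℝ) : ℂ)‖ = Real.exp (∑ i ∈ B, a i) := by
    intro B
    rw [← Complex.ofReal_prod, Complex.norm_real, ← Real.exp_sum,
      Real.norm_of_nonneg (Real.exp_pos _).le]
  refine ge_of_tendsto h1 ?_
  filter_upwards [Filter.eventually_ge_atTop A] with B hB
  rw [h2]
  exact Real.exp_le_exp.mpr (Finset.sum_le_sum_of_subset_of_nonneg hB fun i _ _ ↦ ha i)

/-! ### The trivial character -/

theorem classLSeries_one_eq (hEP : IfaceEP) (F : Type) [Field F] [NumberField F] {s : ℝ}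
    (hs : 1 < s) : classLSeries F 1 s = (((dedekindZeta F s).re : ℝ) : ℂ) := by
  have h1 := (hEP F 1 s hs).2
  have h2 := (Cheb.hasProd_dedekindZeta F hs).map Complex.ofRealHom Complex.continuous_ofReal
  refine h1.unique ?_
  convert h2 using 1
  · funext 𝔓
    simp
  · rfl

/-! ### The first inequality -/

section main

variable (F : Type) [Field F] [NumberField F] (S' : Subgroup (ClassGroup (𝓞 F)))

/-- The character of the class group induced by a character of the quotient by `S'`. -/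
noncomputable def liftChar (ψ : (ClassGroup (𝓞 F) ⧸ S') →* ℂˣ) : ClassGroup (𝓞 F) →* ℂˣ :=
  ψ.comp (QuotientGroup.mk' S')

theorem liftChar_apply (ψ : (ClassGroup (𝓞 F) ⧸ S') →* ℂˣ) (c : ClassGroup (𝓞 F)) :
    liftChar F S' ψ c = ψ (QuotientGroup.mk' S' c) := rfl

theorem liftChar_one : liftChar F S' 1 = 1 := by
  ext c
  simp [liftChar_apply]

theorem liftChar_ne_one {ψ : (ClassGroup (𝓞 F) ⧸ S') →* ℂˣ} (hψ : ψ ≠ 1) :
    liftChar F S' ψ ≠ 1 := by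
  intro h
  apply hψ
  refine MonoidHom.ext fun y ↦ ?_
  obtain ⟨c, rfl⟩ := QuotientGroup.mk'_surjective S' y
  have := DFunLike.congr_fun h c
  rw [liftChar_apply] at this
  rw [this]
  simp

theorem wt_lt_one {s : ℝ} (hs : 1 < s) (𝔓 : HeightOneSpectrum (𝓞 F)) :
    (Ideal.absNorm 𝔓.asIdeal : ℝ) ^ (-s) < 1 :=
  Cheb.A1_phi_prime_lt_one F (by linarith) 𝔓

/-- The key estimate: `h * ∑_{𝔓 ∈ T} N𝔓 ^ (-s) ≤ log ‖∏_ψ L(s, ψ)‖` as soon as the classes of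
the primes in `T` lie in `S'`. -/
theorem card_mul_zetaSum_le (hEP : IfaceEP) [Fintype ((ClassGroup (𝓞 F) ⧸ S') →* ℂˣ)]
    (T : Set (HeightOneSpectrum (𝓞 F))) (hT : ∀ 𝔓 ∈ T, primeClass 𝔓 ∈ S') {s : ℝ} (hs : 1 < s) :
    Real.exp ((Nat.card (ClassGroup (𝓞 F) ⧸ S') : ℝ) * NumberField.Set.primeIdealZetaSum T s) ≤
      ‖∏ ψ : (ClassGroup (𝓞 F) ⧸ S') →* ℂˣ, classLSeries F (liftChar F S' ψ) s‖ := by
  classical
  set h : ℝ := (Nat.card (ClassGroup (𝓞 F) ⧸ S') : ℝ) with hh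
  have hhpos : 0 < h := by
    rw [hh]
    exact_mod_cast Nat.card_pos
  set Z : ℂ := ∏ ψ : (ClassGroup (𝓞 F) ⧸ S') →* ℂˣ, classLSeries F (liftChar F S' ψ) s with hZ
  -- the Euler product of `Z`
  have hprod : HasProd (fun 𝔓 : HeightOneSpectrum (𝓞 F) ↦
      ∏ ψ : (ClassGroup (𝓞 F) ⧸ S') →* ℂˣ,
        (1 - ((ψ (QuotientGroup.mk' S' (primeClass 𝔓)) : ℂˣ) : ℂ) *
          (((Ideal.absNorm 𝔓.asIdeal : ℝ) ^ (-s) : ℝ) : ℂ))⁻¹) Z :=
    hasProd_prod fun ψ _ ↦ (hEP F (liftChar F S' ψ) s hs).2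
  -- every factor is `exp a`
  have hfac : ∀ 𝔓 : HeightOneSpectrum (𝓞 F), ∃ a : ℝ, 0 ≤ a ∧
      (QuotientGroup.mk' S' (primeClass 𝔓) = 1 →
        h * (Ideal.absNorm 𝔓.asIdeal : ℝ) ^ (-s) ≤ a) ∧
      ∏ ψ : (ClassGroup (𝓞 F) ⧸ S') →* ℂˣ,
        (1 - ((ψ (QuotientGroup.mk' S' (primeClass 𝔓)) : ℂˣ) : ℂ) *
          (((Ideal.absNorm 𝔓.asIdeal : ℝ) ^ (-s) : ℝ) : ℂ))⁻¹ = ((Real.exp a : ℝ) : ℂ) :=
    fun 𝔓 ↦ prod_chars_eq_exp (ClassGroup (𝓞 F) ⧸ S') (QuotientGroup.mk' S' (primeClass 𝔓))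
      (by positivity) (wt_lt_one F hs 𝔓)
  choose a ha0 ha1 haeq using hfac
  simp_rw [haeq] at hprod
  have hbound : ∀ A : Finset (HeightOneSpectrum (𝓞 F)), Real.exp (∑ 𝔓 ∈ A, a 𝔓) ≤ ‖Z‖ :=
    exp_sum_le_norm_of_hasProd ha0 hprod
  have hZpos : 0 < ‖Z‖ := lt_of_lt_of_le (Real.exp_pos _) (hbound ∅)
  -- partial sums
  have hpart : ∀ A : Finset (HeightOneSpectrum (𝓞 F)),
      ∑ 𝔓 ∈ A, T.indicator (Cheb.wt F s) 𝔓 ≤ Real.log ‖Z‖ / h := by
    intro A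
    rw [le_div_iff₀ hhpos, mul_comm, Finset.mul_sum]
    have h1 : ∑ 𝔓 ∈ A, h * T.indicator (Cheb.wt F s) 𝔓 ≤ ∑ 𝔓 ∈ A, a 𝔓 := by
      refine Finset.sum_le_sum fun 𝔓 _ ↦ ?_
      by_cases h𝔓 : 𝔓 ∈ T
      · rw [Set.indicator_of_mem h𝔓]
        exact ha1 𝔓 ((QuotientGroup.eq_one_iff _).mpr (hT 𝔓 h𝔓))
      · rw [Set.indicator_of_notMem h𝔓, mul_zero]
        exact ha0 𝔓
    refine h1.trans ?_
    rw [← Real.log_exp (∑ 𝔓 ∈ A, a 𝔓)]
    exact Real.log_le_log (Real.exp_pos _) (hbound A)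
  have hsummable : Summable (T.indicator (Cheb.wt F s)) :=
    Cheb.summable_indicator_wt (Cheb.summable_absNorm_rpow_neg F hs) T
  have htsum : NumberField.Set.primeIdealZetaSum T s ≤ Real.log ‖Z‖ / h := by
    rw [Cheb.primeIdealZetaSum_eq_tsum_indicator]
    exact hsummable.tsum_le_of_sum_le hpart
  rw [le_div_iff₀ hhpos, mul_comm] at htsum
  calc Real.exp (h * NumberField.Set.primeIdealZetaSum T s)
      ≤ Real.exp (Real.log ‖Z‖) := Real.exp_le_exp.mpr htsum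
    _ = ‖Z‖ := Real.exp_log hZpos

/-- The upper bound `‖∏_ψ L(s, ψ)‖ ≤ ζ_F(s) * B`. -/
theorem norm_prod_le (hEP : IfaceEP) (hBdd : IfaceBdd)
    [Fintype ((ClassGroup (𝓞 F) ⧸ S') →* ℂˣ)] :
    ∃ B : ℝ, 0 < B ∧ ∀ s : ℝ, 1 < s → s ≤ 2 →
      ‖∏ ψ : (ClassGroup (𝓞 F) ⧸ S') →* ℂˣ, classLSeries F (liftChar F S' ψ) s‖ ≤
        (dedekindZeta F s).re * B := by
  classical
  have hB : ∀ ψ : (ClassGroup (𝓞 F) ⧸ S') →* ℂˣ, ∃ B : ℝ, 1 ≤ B ∧ (ψ ≠ 1 →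
      ∀ s : ℝ, 1 < s → s ≤ 2 → ‖classLSeries F (liftChar F S' ψ) s‖ ≤ B) := by
    intro ψ
    by_cases hψ : ψ = 1
    · exact ⟨1, le_rfl, fun h ↦ absurd hψ h⟩
    · obtain ⟨B, hB⟩ := hBdd F (liftChar F S' ψ) (liftChar_ne_one F S' hψ)
      exact ⟨max B 1, le_max_right _ _, fun _ s hs hs2 ↦ (hB s hs hs2).trans (le_max_left _ _)⟩
  choose B hB1 hB using hB
  refine ⟨∏ ψ ∈ (Finset.univ.erase (1 : (ClassGroup (𝓞 F) ⧸ S') →* ℂˣ)), B ψ,
    Finset.prod_pos fun ψ _ ↦ lt_of_lt_of_le zero_lt_one (hB1 ψ), fun s hs hs2 ↦ ?_⟩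
  rw [norm_prod, ← Finset.mul_prod_erase Finset.univ _ (Finset.mem_univ
    (1 : (ClassGroup (𝓞 F) ⧸ S') →* ℂˣ))]
  have hζ : 1 ≤ (dedekindZeta F s).re := (Cheb.dedekindZeta_im_eq_zero F hs).2
  have h1 : ‖classLSeries F (liftChar F S' 1) s‖ = (dedekindZeta F s).re := by
    rw [liftChar_one, classLSeries_one_eq hEP F hs, Complex.norm_real,
      Real.norm_of_nonneg (zero_le_one.trans hζ)]
  rw [h1]
  refine mul_le_mul_of_nonneg_left ?_ (zero_le_one.trans hζ)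
  refine Finset.prod_le_prod (fun ψ _ ↦ norm_nonneg _) fun ψ hψ ↦ ?_
  exact hB ψ (Finset.ne_of_mem_erase hψ) s hs hs2

end main

end AIneq

/-- **First inequality** (A-INEQ). -/
theorem ifaceA_of (hEP : IfaceEP) (hBdd : IfaceBdd) : IfaceA := by
  intro F M _ _ _ _ _ _ S' T₀ hT₀ hS'
  classical
  by_contra hcon
  rw [not_le] at hcon
  haveI : Finite ((ClassGroup (𝓞 F) ⧸ S') →* ℂˣ) := AIneq.finite_chars _
  letI : Fintype ((ClassGroup (𝓞 F) ⧸ S') →* ℂˣ) := Fintype.ofFinite _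
  have hidx : S'.index = Nat.card (ClassGroup (𝓞 F) ⧸ S') := Subgroup.index_eq_card S'
  rw [hidx] at hcon
  set h : ℝ := (Nat.card (ClassGroup (𝓞 F) ⧸ S') : ℝ) with hh
  set n : ℝ := (Module.finrank F M : ℝ) with hn
  have hnpos : 0 < n := by
    rw [hn]
    exact_mod_cast Module.finrank_pos (R := F) (M := M)
  have hnh : n < h := by
    rw [hn, hh]
    exact_mod_cast hcon
  -- the set of good primes
  set T : Set (HeightOneSpectrum (𝓞 F)) :=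
    {𝔭 : HeightOneSpectrum (𝓞 F) | Cheb.IsDegOne F 𝔭 ∧ Cheb.SplitsCompletely F M 𝔭} \ T₀ with hTdef
  have hT : ∀ 𝔓 ∈ T, primeClass 𝔓 ∈ S' := fun 𝔓 h𝔓 ↦ hS' 𝔓 h𝔓.2 h𝔓.1.1 h𝔓.1.2
  have hP : Cheb.HasLogAsymp (NumberField.Set.primeIdealZetaSum T) (1 / n) :=
    Cheb.HasLogAsymp.diff_finite (fun s hs ↦ Cheb.summable_absNorm_rpow_neg F hs)
      (Cheb.hasLogAsymp_splitsCompletely F M) hT₀
  have hζ : Cheb.HasLogAsymp (fun s ↦ Real.log (dedekindZeta F s).re) 1 :=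
    Cheb.hasLogAsymp_log_dedekindZeta F
  have hf := (hP.const_mul h).sub hζ
  have hpos : 0 < h * (1 / n) - 1 := by
    rw [mul_one_div, sub_pos, one_lt_div hnpos]
    exact hnh
  obtain ⟨B, hBpos, hB⟩ := AIneq.norm_prod_le F S' hEP hBdd
  obtain ⟨s, hs1, hs2, hlt⟩ := hf.not_bounded hpos (Real.log B)
  have h1 := AIneq.card_mul_zetaSum_le F S' hEP T hT hs1
  have h2 := hB s hs1 hs2
  have hζ1 : 1 ≤ (dedekindZeta F s).re := (Cheb.dedekindZeta_im_eq_zero F hs1).2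
  have hζpos : 0 < (dedekindZeta F s).re := lt_of_lt_of_le zero_lt_one hζ1
  have h3 : h * NumberField.Set.primeIdealZetaSum T s ≤
      Real.log (dedekindZeta F s).re + Real.log B := by
    rw [← Real.log_mul hζpos.ne' hBpos.ne', ← Real.log_exp (h * _)]
    exact Real.log_le_log (Real.exp_pos _) (h1.trans h2)
  have hlt' : Real.log B <
      h * NumberField.Set.primeIdealZetaSum T s - Real.log (dedekindZeta F s).re := hlt
  linarith

end Fermat.Agent.S14
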