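import Mathlib
import Fermat.Agent.S14.Iface
import Fermat.Agent.S14.AEulerProd
import Fermat.Agent.S14.ACount.Lattice
import Fermat.Agent.S14.ACount.Frontier
import Fermat.Agent.S14.ACount.Ideals
import Fermat.Agent.S14.ABounded
import Fermat.Agent.S14.AFirstIneq

/-!
# P-CFT, analytic half: the first inequality, unconditional

Assembly of the landed analytic modules:

* `ifaceEP : IfaceEP` (A-EP, Euler product of the class `L`-series);
* `card_le_sub_le` (A-CNT1, lattice points with an error term);
* `volume_thickening_frontier_normLeOne` (A-CNT2, thickened frontier of `normLeOne`);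
* `ifaceCnt_of` (A-CNT3, ideals per class with an error term);
* `ifaceBdd_of` (A-BDD, `L(s, χ)` is bounded on `(1, 2]` for `χ ≠ 1`);
* `ifaceA_of` (A-INEQ, the first inequality).

Results: `ifaceCnt : IfaceCnt`, `ifaceBdd : IfaceBdd`, `ifaceA : IfaceA`.
-/

set_option autoImplicit false

namespace Fermat.Agent.S14

/-- A-CNT1 in the shape consumed by A-CNT3. -/
theorem AFin_stmtCNT1 : ACNT3.StmtCNT1 :=
  fun L _ _ _ _ hX h₁ h₂ h₃ h₄ ↦ card_le_sub_le L hX h₁ h₂ h₃ h₄

/-- A-CNT2 in the shape consumed by A-CNT3. -/
theorem AFin_stmtCNT2 : ACNT3.StmtCNT2 :=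
  fun K _ _ ↦ volume_thickening_frontier_normLeOne K

/-- **A-CNT**: two ideal classes contain the same number of integral ideals of norm `≤ x`, up
to `O(x ^ θ)` with `θ < 1`. -/
theorem ifaceCnt : IfaceCnt :=
  ifaceCnt_of AFin_stmtCNT1 AFin_stmtCNT2

/-- **A-BDD**: the `L`-series of a nontrivial character of the class group is bounded on
`(1, 2]`. -/
theorem ifaceBdd : IfaceBdd :=
  ifaceBdd_of ifaceCnt

/-- **A-INEQ** (the first inequality of class field theory, analytic form): a subgroup of the
class group of `F` containing the classes of all degree one primes (outside a finite set) which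
split completely in the Galois extension `M / F` has index at most `[M : F]`. -/
theorem ifaceA : IfaceA :=
  ifaceA_of ifaceEP ifaceBdd

end Fermat.Agent.S14
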