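import Mathlib
import Fermat.Prelude.Def_ExtCitation_AdmissibleExtension_v2
import Fermat.Agent.Bridge.Interfaces
import Fermat.Agent.S14.Iface

/-!
# Pillar P-CFT (S14): the glue between the Prelude statement and the number field `Heart`

* `GluePackage p E ζ` : the Galois-theoretic data extracted from a non-split admissible
  extension `V`: a finite Galois `E / ℚ` inside `Qbar` of degree `p (p - 1)` containing the
  primitive `p`-th root of unity `ζ`, with the `ω⁻¹`-action and the inertia condition.
* `IfaceGlueCoc` : a non-split admissible extension produces a `GluePackage`   (G-COC).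
* `IfaceGlueFin` : no `GluePackage` exists                                      (G-FIN, from `Heart`).
* `extVanishingCts_of` : the two together give `ExtCitation.ExtVanishingCts p`.
-/

set_option autoImplicit false

open NumberField

namespace Fermat.Agent.S14

open Fermat.Agent.Bridge

/-- The Galois-theoretic package extracted from a non-split admissible extension. -/
structure GluePackage (p : ℕ) (E : IntermediateField ℚ Qb) (ζ : Qb) : Prop where
  /-- `E / ℚ` is finite -/
  finite : FiniteDimensional ℚ E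
  /-- `E / ℚ` is Galois -/
  galois : IsGalois ℚ E
  /-- `ζ ∈ E` -/
  zeta_mem : ζ ∈ E
  /-- `ζ` is a primitive `p`-th root of unity -/
  zeta_prim : IsPrimitiveRoot ζ p
  /-- `[E : ℚ] = p (p - 1)`, i.e. `[E : ℚ(ζ)] = p` -/
  degree : Module.finrank ℚ E = p * (p - 1)
  /-- the action of `Gal(ℚ(ζ)/ℚ)` on `Gal(E/ℚ(ζ))` is through `ω⁻¹` -/
  action : ∀ (τ g : GQ) (a : ℕ), τ ζ = ζ ^ a → g ζ = ζ →
    (τ * g * τ⁻¹) ^ a * g⁻¹ ∈ E.fixingSubgroup
  /-- `E / ℚ(ζ)` is unramified at every prime: inertia elements fixing `ζ` fix `E` -/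
  inertia : ∀ (q : ℕ), q.Prime → ∀ A : ValuationSubring Qb, A.LiesOverPrime q →
    ∀ σ ∈ A.inertiaSubgroupIn ℚ, σ ζ = ζ → σ ∈ E.fixingSubgroup

/-- G-COC: a non-split admissible extension produces a `GluePackage`. -/
def IfaceGlueCoc : Prop :=
  ∀ (p : ℕ) [Fact p.Prime], 3 ≤ p → ∀ (V : Type) [AddCommGroup V] [Module (ZMod p) V]
    [DistribMulAction GQ V] [SMulCommClass GQ (ZMod p) V] (C : Submodule (ZMod p) V),
    ExtCitation.IsAdmissibleExtensionCts p V C → ¬ ExtCitation.SplitsGlobally C →
    ∃ (E : IntermediateField ℚ Qb) (ζ : Qb), GluePackage p E ζ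

/-- G-FIN: there is no `GluePackage` (consequence of `Heart` and the P-BRIDGE dictionary). -/
def IfaceGlueFin : Prop :=
  ∀ (p : ℕ), p.Prime → 3 ≤ p → ∀ (E : IntermediateField ℚ Qb) (ζ : Qb),
    GluePackage p E ζ → False

/-- The final assembly of S14 from the two glue interfaces. -/
theorem extVanishingCts_of (hcoc : IfaceGlueCoc) (hfin : IfaceGlueFin)
    {p : ℕ} [Fact p.Prime] (h3 : 3 ≤ p) : ExtCitation.ExtVanishingCts p := by
  intro V _ _ _ _ C hadm
  by_contra hns
  obtain ⟨E, ζ, hpkg⟩ := hcoc p h3 V C hadm hns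
  exact hfin p (Fact.out) h3 E ζ hpkg

end Fermat.Agent.S14
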