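import Mathlib
import Fermat.Agent.S14.GlueIface
import Fermat.Agent.S14.GlueCoc.Algebra
import Fermat.Agent.S14.GlueCoc.Field
import Fermat.Agent.S14.GlueCoc.Degree

/-!
# P-CFT (S14), module G-COC: a non-split admissible extension produces a `GluePackage`

`E` is the fixed field of the kernel of the Galois action on `V`, `ζ` any primitive `p`-th root
of unity in `Qbar`.
-/

set_option autoImplicit false

namespace Fermat.Agent.S14

open ExtCitation Fermat.Agent.Bridge Fermat.Agent.S14.GlueCoc

/-- G-COC: a non-split admissible extension produces a `GluePackage`. -/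
theorem ifaceGlueCoc : IfaceGlueCoc := by
  intro p _ h3 V _ _ _ _ C hadm hns
  haveI : NeZero p := ⟨(Fact.out : p.Prime).ne_zero⟩
  obtain ⟨ζ, hζ⟩ := HasEnoughRootsOfUnity.exists_primitiveRoot Qb p
  refine ⟨GCOC_field V, ζ, ?_⟩
  have hfix : (GCOC_field V).fixingSubgroup = kerAct GQ V := GCOC_fixingSubgroup hadm
  refine
    { finite := GCOC_finiteDimensional hadm
      galois := GCOC_isGalois hadm
      zeta_mem := GCOC_root_mem hadm hζ.pow_eq_one
      zeta_prim := hζ
      degree := ?_
      action := ?_
      inertia := ?_ }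
  · rw [GCOC_finrank_eq_index hadm, GCOC_index_kerAct hadm h3 hns]
  · intro τ g a hτ hg
    rw [hfix]
    exact GCOC_conj hadm τ (GCOC_mem_ker_of_fix hζ hg) a hζ hτ
  · intro q hq A hA σ hσ hσζ
    rw [hfix]
    by_cases hqp : q = p
    · subst hqp
      apply GCOC_decomposition_inf_le hadm A hA
      refine ⟨?_, GCOC_mem_ker_of_fix hζ hσζ⟩
      obtain ⟨x, _, rfl⟩ := hσ
      exact x.2
    · exact GCOC_inertia_le hadm hq hqp A hA hσ

end Fermat.Agent.S14
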