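import Mathlib
import Fermat.Agent.S14.GlueIface
import Fermat.Agent.Bridge.Dict
import Fermat.Agent.Bridge.Restrict
import Fermat.Agent.Bridge.ResLift
import Fermat.Agent.Bridge.Minkowski

/-!
# Pillar P-CFT (S14), module G-FIN: no glue package exists

`ifaceGlueFin_of : Heart → IfaceGlueFin` : a glue package `(E, ζ)` (a finite Galois extension
`E / ℚ` inside `Qbar` of degree `p (p - 1)` containing a primitive `p`-th root of unity `ζ`,
with the `ω⁻¹`-action and the inertia condition) yields number fields `K = ℚ(ζ) ⊆ L = E`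
satisfying all the hypotheses of `Heart`.

* `L / K` is unramified everywhere: an inertia group of `Gal(L/K)` is contained in an inertia
  group of `Gal(L/ℚ)`, which is the image of an inertia group of `Gal(Qbar/ℚ)` (P-BRIDGE);
  its elements come from inertia elements fixing `ζ`, which act trivially on `E`.
* the action hypothesis is the restriction to `E` of the action clause of the package.
-/

set_option autoImplicit false

open NumberField IsDedekindDomain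
open scoped Pointwise

namespace Fermat.Agent.S14

open Fermat.Agent.Bridge

/-- The restriction interface (B2b), unconditionally. -/
theorem GFin_mapInertia : IfaceMapInertia := mapInertia_of conj resLift

/-- An extension of number fields in which all inertia groups are trivial is unramified
everywhere. -/
theorem GFin_unramifiedEverywhere_of (K L : Type*) [Field K] [NumberField K] [Field L]
    [NumberField L] [Algebra K L] [IsGalois K L]
    (h : ∀ (𝔔 : Ideal (𝓞 L)) [𝔔.IsPrime], 𝔔 ≠ ⊥ → 𝔔.inertia Gal(L/K) = ⊥) :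
    UnramifiedEverywhere K L := by
  intro 𝔮
  have hp : 𝔮.asIdeal.IsPrime := 𝔮.isPrime
  obtain ⟨⟨𝔔, hP1, hP2⟩⟩ := (inferInstance : Nonempty (𝔮.asIdeal.primesOver (𝓞 L)))
  have hne : 𝔔 ≠ ⊥ := by
    rintro rfl
    apply 𝔮.ne_bot
    rw [hP2.over]
    exact Ideal.under_bot (𝓞 K) (𝓞 L)
  rw [← Ideal.card_inertia_eq_ramificationIdxIn (G := Gal(L/K)) 𝔮.asIdeal 𝔔, h 𝔔 hne]
  simp

/-- A valuation subring of `Qbar` cutting out a nonzero prime of a subfield lies over a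
prime number. -/
theorem GFin_exists_liesOverPrime (E : IntermediateField ℚ Qb) (A : ValuationSubring Qb)
    (h : primeUnder A E ≠ ⊥) : ∃ q : ℕ, q.Prime ∧ A.LiesOverPrime q := by
  have hA : A ≠ ⊤ := by
    rintro rfl
    apply h
    rw [eq_bot_iff]
    intro x hx
    rw [mem_primeUnder] at hx
    have h0 : ((x : E) : Qb) = 0 := by
      rw [ValuationSubring.mem_nonunits_iff_or] at hx
      rcases hx with hx | hx
      · exact hx
      · exact absurd (ValuationSubring.mem_top _) hx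
    rw [Ideal.mem_bot]
    ext
    exact_mod_cast h0
  obtain ⟨q, hq, hqA, -⟩ := existsPrime A hA
  exact ⟨q, hq, hqA⟩

/-- Restriction of an element of `Gal(Qbar/ℚ)` to a normal subfield, evaluated. -/
theorem GFin_coe_restrict (E : IntermediateField ℚ Qb) [Normal ℚ E] (σ : GQ) (x : E) :
    ((AlgEquiv.restrictNormalHom E σ x : E) : Qb) = σ (x : Qb) :=
  AlgEquiv.restrictNormal_commutes σ E x

/-- If every inertia element of `Gal(Qbar/ℚ)` fixing `ζ` fixes `E`, then the inertia groups of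
`E` over any subfield containing `ζ` are trivial. -/
theorem GFin_inertia_eq_bot (E : IntermediateField ℚ Qb) [FiniteDimensional ℚ E] [IsGalois ℚ E]
    (K : IntermediateField ℚ E) (ζ : Qb) (hζ : ζ ∈ E) (hζK : (⟨ζ, hζ⟩ : E) ∈ K)
    (hin : ∀ (q : ℕ), q.Prime → ∀ A : ValuationSubring Qb, A.LiesOverPrime q →
      ∀ σ ∈ A.inertiaSubgroupIn ℚ, σ ζ = ζ → σ ∈ E.fixingSubgroup)
    (𝔔 : Ideal (𝓞 E)) [𝔔.IsPrime] (h𝔔 : 𝔔 ≠ ⊥) :
    𝔔.inertia Gal(E/K) = ⊥ := by
  rw [eq_bot_iff]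
  intro g hg
  rw [Subgroup.mem_bot]
  obtain ⟨A, rfl⟩ := existsOver E 𝔔 h𝔔
  obtain ⟨q, hq, hqA⟩ := GFin_exists_liesOverPrime E A h𝔔
  have hg' : g.restrictScalars ℚ ∈ (primeUnder A E).inertia (E ≃ₐ[ℚ] E) := by
    intro x
    exact hg x
  rw [← GFin_mapInertia E A] at hg'
  obtain ⟨σ, hσ, hσg⟩ := hg'
  have hσζ : σ ζ = ζ := by
    have h1 := GFin_coe_restrict E σ ⟨ζ, hζ⟩
    have h2 : (AlgEquiv.restrictNormalHom E σ) ⟨ζ, hζ⟩ = g ⟨ζ, hζ⟩ := by
      rw [hσg]; rfl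
    have h3 : g ⟨ζ, hζ⟩ = ⟨ζ, hζ⟩ := g.commutes ⟨⟨ζ, hζ⟩, hζK⟩
    rw [h2, h3] at h1
    exact h1.symm
  have hfix := hin q hq A hqA σ hσ hσζ
  have h1 : AlgEquiv.restrictNormalHom E σ = 1 := (restrictNormalHom_eq_one_iff E σ).mpr hfix
  rw [h1] at hσg
  refine AlgEquiv.ext fun x => ?_
  have := congrArg (fun f : E ≃ₐ[ℚ] E => f x) hσg
  exact this.symm

/-- The action hypothesis of `Heart` from the action clause of a glue package. -/
theorem GFin_action (E : IntermediateField ℚ Qb) [FiniteDimensional ℚ E] [IsGalois ℚ E]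
    (K : IntermediateField ℚ E) (p : ℕ) (hp : p.Prime) (ζ : Qb) (hζ : ζ ∈ E)
    (hζK : (⟨ζ, hζ⟩ : E) ∈ K) (hprim : IsPrimitiveRoot ζ p)
    (hact : ∀ (τ g : GQ) (a : ℕ), τ ζ = ζ ^ a → g ζ = ζ →
      (τ * g * τ⁻¹) ^ a * g⁻¹ ∈ E.fixingSubgroup)
    (ζ₁ : E) (τ : Gal(E/ℚ)) (g : Gal(E/K)) (a : ℕ) (h1 : IsPrimitiveRoot ζ₁ p)
    (h2 : τ ζ₁ = ζ₁ ^ a) :
    (τ * g.restrictScalars ℚ * τ⁻¹) ^ a = g.restrictScalars ℚ := by
  have : NeZero p := ⟨hp.ne_zero⟩
  have hQb : IsGalois ℚ Qb := isGalois_rat_Qb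
  obtain ⟨τ', hτ'⟩ := AlgEquiv.restrictNormalHom_surjective (F := ℚ) (K₁ := E) Qb τ
  obtain ⟨g', hg'⟩ := AlgEquiv.restrictNormalHom_surjective (F := ℚ) (K₁ := E) Qb
    (g.restrictScalars ℚ)
  -- `ζ` as an element of `E`
  have hζ'pow : (⟨ζ, hζ⟩ : E) ^ p = 1 := by
    apply Subtype.ext
    simpa using hprim.pow_eq_one
  obtain ⟨j, -, hj⟩ := h1.eq_pow_of_pow_eq_one hζ'pow
  have hτζ : τ (⟨ζ, hζ⟩ : E) = (⟨ζ, hζ⟩ : E) ^ a := by
    rw [← hj, map_pow, h2, ← pow_mul, ← pow_mul, mul_comm]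
  have hgζ : g (⟨ζ, hζ⟩ : E) = ⟨ζ, hζ⟩ := g.commutes ⟨⟨ζ, hζ⟩, hζK⟩
  have e1 : τ' ζ = ζ ^ a := by
    have := GFin_coe_restrict E τ' ⟨ζ, hζ⟩
    rw [hτ', hτζ] at this
    simpa using this.symm
  have e2 : g' ζ = ζ := by
    have := GFin_coe_restrict E g' ⟨ζ, hζ⟩
    rw [hg'] at this
    have h3 : (g.restrictScalars ℚ) (⟨ζ, hζ⟩ : E) = ⟨ζ, hζ⟩ := hgζ
    rw [h3] at this
    exact this.symm
  have h3 := (restrictNormalHom_eq_one_iff E _).mpr (hact τ' g' a e1 e2)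
  rw [map_mul, map_pow, map_mul, map_mul, map_inv, map_inv, hτ', hg', mul_inv_eq_one] at h3
  exact h3

/-- G-FIN: `Heart` excludes every glue package. -/
theorem ifaceGlueFin_of (hH : Heart) : IfaceGlueFin := by
  intro p hp h3 E ζ pkg
  have hfin : FiniteDimensional ℚ E := pkg.finite
  have hgal : IsGalois ℚ E := pkg.galois
  have hnf : NumberField E := numberField_of_finiteDimensional E
  have hne : NeZero p := ⟨hp.ne_zero⟩
  have hζ' : IsPrimitiveRoot (⟨ζ, pkg.zeta_mem⟩ : E) p := by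
    have h : IsPrimitiveRoot (algebraMap E Qb ⟨ζ, pkg.zeta_mem⟩) p := pkg.zeta_prim
    exact h.of_map_of_injective (algebraMap E Qb).injective
  have hcyc : IsCyclotomicExtension {p} ℚ
      (IntermediateField.adjoin ℚ {(⟨ζ, pkg.zeta_mem⟩ : E)}) :=
    hζ'.intermediateField_adjoin_isCyclotomicExtension ℚ
  have hK : Module.finrank ℚ (IntermediateField.adjoin ℚ {(⟨ζ, pkg.zeta_mem⟩ : E)}) = p - 1 := by
    rw [IsCyclotomicExtension.finrank (n := p)
      (IntermediateField.adjoin ℚ {(⟨ζ, pkg.zeta_mem⟩ : E)})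
      (Polynomial.cyclotomic.irreducible_rat hp.pos), Nat.totient_prime hp]
  have hKE : Module.finrank (IntermediateField.adjoin ℚ {(⟨ζ, pkg.zeta_mem⟩ : E)}) E = p := by
    have h := Module.finrank_mul_finrank ℚ
      (IntermediateField.adjoin ℚ {(⟨ζ, pkg.zeta_mem⟩ : E)}) E
    rw [hK, pkg.degree, mul_comm p] at h
    have hp1 : 0 < p - 1 := by have := hp.two_le; omega
    exact Nat.eq_of_mul_eq_mul_left hp1 h
  have hζK : (⟨ζ, pkg.zeta_mem⟩ : E) ∈ IntermediateField.adjoin ℚ {(⟨ζ, pkg.zeta_mem⟩ : E)} :=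
    IntermediateField.mem_adjoin_simple_self ℚ _
  refine hH p hp h3 (IntermediateField.adjoin ℚ {(⟨ζ, pkg.zeta_mem⟩ : E)}) E hKE ?_ ?_
  · exact GFin_unramifiedEverywhere_of _ _ fun 𝔔 _ h𝔔 =>
      GFin_inertia_eq_bot E _ ζ pkg.zeta_mem hζK pkg.inertia 𝔔 h𝔔
  · intro ζ₁ τ g a h1 h2
    exact GFin_action E _ p hp ζ pkg.zeta_mem hζK pkg.zeta_prim pkg.action ζ₁ τ g a h1 h2

end Fermat.Agent.S14
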