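import Mathlib
import Fermat.Agent.S14.Iface
import Fermat.Agent.Cheb.Cyclic
import Fermat.Agent.Cheb.Deuring

/-!
# Pillar P-CFT (S14), module F-FIN: the heart

`heart_of : IfaceA → IfaceB → IfaceC → IfaceD → Heart`.

`K = ℚ(ζ_p)`, `L / K` cyclic of degree `p`, unramified everywhere, Galois over `ℚ`, with
`Gal(K/ℚ)` acting on `G = Gal(L/K)` through the inverse cyclotomic character.
`Nm` = the subgroup of the class group of `K` generated by norms from `L`.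

1. weak Chebotarev (cyclic case): degree one inert primes `𝔮₁ | q₁`, `𝔮₂ | q₂`, `p < q₁ < q₂`;
   `s` a Frobenius of `𝔮₁`, a generator of `G`.
2. Artin crossing (D): a degree one prime `𝔮 ∤ p` with Frobenius `s ^ k` has class
   `≡ [𝔮₁] ^ k` modulo `Nm`.
3. Stickelberger (C) and the action: `[𝔮₁] ^ (∑_{p/2 < c < p} c) ∈ Nm`; the exponent is prime
   to `p` and `[𝔮₁] ^ p ∈ Nm`, so `[𝔮₁] ∈ Nm`.
4. Hence all degree one primes `∤ p` have class in `Nm`; by the first inequality (A) for the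
   trivial extension `K / K`, `Nm = ⊤`, contradicting the second inequality (B).
-/

set_option autoImplicit false
set_option linter.unusedSectionVars false
set_option linter.unusedVariables false

open NumberField IsDedekindDomain
open scoped nonZeroDivisors Pointwise

namespace Fermat.Agent.S14

namespace HeartF

/-! ### Frobenius elements -/

section basic

variable {K L : Type} [Field K] [NumberField K] [Field L] [NumberField L] [Algebra K L]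
  [IsGalois K L]

theorem absNorm_eq_card (𝔮 : Ideal (𝓞 K)) : Ideal.absNorm 𝔮 = Nat.card (𝓞 K ⧸ 𝔮) := by
  rw [Ideal.absNorm_apply, Submodule.cardQuot_apply]

/-- existence of a Frobenius element at every prime -/
theorem exists_isFrobAt (𝔮 : HeightOneSpectrum (𝓞 K)) : ∃ g : Gal(L/K), IsFrobAt K L 𝔮 g := by
  have : 𝔮.asIdeal.IsMaximal := 𝔮.isMaximal
  obtain ⟨⟨𝔔, h𝔔prime, h𝔔over⟩⟩ :=
    (inferInstance : Nonempty (Ideal.primesOver 𝔮.asIdeal (𝓞 L)))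
  have := h𝔔prime
  have := h𝔔over
  have h𝔔ne : 𝔔 ≠ ⊥ := Ideal.ne_bot_of_liesOver_of_ne_bot 𝔮.ne_bot 𝔔
  have hfin : Finite (𝓞 L ⧸ 𝔔) := Ideal.finiteQuotientOfFreeOfNeBot 𝔔 h𝔔ne
  obtain ⟨φ, hφ⟩ := IsArithFrobAt.exists_of_isInvariant (𝓞 K) Gal(L/K) 𝔔
  have hunder : 𝔔.under (𝓞 K) = 𝔮.asIdeal := h𝔔over.over.symm
  refine ⟨φ, 𝔔, h𝔔prime, hunder, fun x => ?_⟩
  have := hφ x
  rw [hunder, ← absNorm_eq_card] at this
  exact this

/-- A Frobenius element at an inert prime is nontrivial. -/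
theorem ne_one_of_isInert {𝔮 : HeightOneSpectrum (𝓞 K)} (hin : Cheb.IsInert K L 𝔮)
    (hdeg : 2 ≤ Module.finrank K L) {g : Gal(L/K)} (hg : IsFrobAt K L 𝔮 g) : g ≠ 1 := by
  rintro rfl
  obtain ⟨𝔔, h𝔔prime, hunder, hfrob⟩ := hg
  have := h𝔔prime
  have : 𝔮.asIdeal.IsMaximal := 𝔮.isMaximal
  have h𝔔over : 𝔔.LiesOver 𝔮.asIdeal := ⟨hunder.symm⟩
  have h𝔔ne : 𝔔 ≠ ⊥ := Ideal.ne_bot_of_liesOver_of_ne_bot 𝔮.ne_bot 𝔔
  have hfin : Finite (𝓞 L ⧸ 𝔔) := Ideal.finiteQuotientOfFreeOfNeBot 𝔔 h𝔔ne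
  have h𝔔max : 𝔔.IsMaximal := Ring.DimensionLEOne.maximalOfPrime h𝔔ne h𝔔prime
  have hφ : IsArithFrobAt (𝓞 K) (1 : Gal(L/K)) 𝔔 := by
    intro x
    have := hfrob x
    rw [hunder, ← absNorm_eq_card]
    simpa using this
  have hN2 : 2 ≤ Nat.card (𝓞 K ⧸ 𝔔.under (𝓞 K)) := by
    rw [hunder]
    have : Finite (𝓞 K ⧸ 𝔮.asIdeal) := Ideal.finiteQuotientOfFreeOfNeBot _ 𝔮.ne_bot
    have : Nontrivial (𝓞 K ⧸ 𝔮.asIdeal) := Ideal.Quotient.nontrivial_iff.mpr 𝔮.isPrime.ne_top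
    exact Finite.one_lt_card
  have h8 := Cheb.E1_card_quot_le (R := 𝓞 K) hφ one_pos (pow_one _) hN2
  have hf : 𝔔.inertiaDeg (𝓞 K) = Module.finrank K L := by
    rw [← hin.2]
    exact (Ideal.inertiaDegIn_eq_inertiaDeg 𝔮.asIdeal 𝔔 Gal(L/K)).symm
  have hcardL : Nat.card (𝓞 L ⧸ 𝔔) =
      Nat.card (𝓞 K ⧸ 𝔔.under (𝓞 K)) ^ Module.finrank K L := by
    let _ : Field (𝓞 K ⧸ 𝔮.asIdeal) := Ideal.Quotient.field 𝔮.asIdeal
    have h6 := Ideal.inertiaDeg_eq_of_isMaximal 𝔮.asIdeal 𝔔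
    have h7 := Module.natCard_eq_pow_finrank (K := 𝓞 K ⧸ 𝔮.asIdeal) (V := 𝓞 L ⧸ 𝔔)
    rw [h7, ← h6, hf, hunder]
  rw [hcardL, pow_one] at h8
  have : Nat.card (𝓞 K ⧸ 𝔔.under (𝓞 K)) ^ 2 ≤
      Nat.card (𝓞 K ⧸ 𝔔.under (𝓞 K)) ^ Module.finrank K L :=
    Nat.pow_le_pow_right (by omega) hdeg
  nlinarith

/-- the `[L : K]`-th power of the class of a prime is the class of a norm -/
theorem primeClass_pow_mem (𝔮 : HeightOneSpectrum (𝓞 K)) :
    primeClass 𝔮 ^ Module.finrank K L ∈ normClassSubgroup K L := by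
  apply Subgroup.subset_closure
  have h0 : 𝔮.asIdeal.map (algebraMap (𝓞 K) (𝓞 L)) ∈ (Ideal (𝓞 L))⁰ := by
    apply mem_nonZeroDivisors_of_ne_zero
    intro h
    rw [Ideal.zero_eq_bot, Ideal.map_eq_bot_iff_of_injective
      (RingOfIntegers.algebraMap.injective K L)] at h
    exact 𝔮.ne_bot h
  refine ⟨⟨_, h0⟩, (⟨𝔮.asIdeal, mem_nonZeroDivisors_of_ne_zero 𝔮.ne_bot⟩ : (Ideal (𝓞 K))⁰) ^
    Module.finrank K L, ?_, ?_⟩
  · rw [SubmonoidClass.coe_pow]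
    simp only
    rw [Ideal.relNorm_algebraMap, IsFractionRing.finrank_eq (𝓞 K) K (𝓞 L) L]
  · rw [map_pow]
    rfl

end basic

/-! ### Conjugation by `Gal(L/ℚ)` -/

section conj

variable {K L : Type} [Field K] [NumberField K] [Field L] [NumberField L] [Algebra K L]
  [IsGalois K L] [IsGalois ℚ L] [IsGalois ℚ K]

theorem coe_smul_int {F : Type} [Field F] [NumberField F] {k : Type} [Field k] [Algebra k F]
    (g : Gal(F/k)) (x : 𝓞 F) : ((g • x : 𝓞 F) : F) = g (x : F) := by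
  rw [RingOfIntegers.coe_eq_algebraMap, algebraMap.smul']
  rfl

theorem coe_algebraMap_int (x : 𝓞 K) :
    ((algebraMap (𝓞 K) (𝓞 L) x : 𝓞 L) : L) = algebraMap K L (x : K) := by
  rw [RingOfIntegers.coe_eq_algebraMap, RingOfIntegers.coe_eq_algebraMap,
    ← IsScalarTower.algebraMap_apply, ← IsScalarTower.algebraMap_apply]

/-- restriction commutes with the inclusion of integers -/
theorem algebraMap_restrict_smul (τ : Gal(L/ℚ)) (x : 𝓞 K) :
    algebraMap (𝓞 K) (𝓞 L) ((τ.restrictNormal K) • x) = τ • algebraMap (𝓞 K) (𝓞 L) x := by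
  apply RingOfIntegers.ext
  rw [coe_smul_int, coe_algebraMap_int, coe_algebraMap_int, coe_smul_int]
  exact AlgEquiv.restrictNormal_commutes τ K (x : K)

theorem restrictNormal_mul_inv_apply (τ : Gal(L/ℚ)) (k : K) :
    τ.restrictNormal K ((τ⁻¹).restrictNormal K k) = k := by
  have h := map_mul (AlgEquiv.restrictNormalHom (F := ℚ) (K₁ := L) K) τ τ⁻¹
  rw [mul_inv_cancel, map_one] at h
  have h2 : (AlgEquiv.restrictNormalHom (F := ℚ) (K₁ := L) K τ *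
      AlgEquiv.restrictNormalHom (F := ℚ) (K₁ := L) K τ⁻¹) k = (1 : Gal(K/ℚ)) k := by
    rw [← h]
  exact h2

/-- conjugate of an element of `Gal(L/K)` by an element of `Gal(L/ℚ)` -/
noncomputable def conjGal (τ : Gal(L/ℚ)) (g : Gal(L/K)) : Gal(L/K) :=
  AlgEquiv.ofRingEquiv (f := (τ * g.restrictScalars ℚ * τ⁻¹ : Gal(L/ℚ)).toRingEquiv) (by
    intro k
    show τ (g (τ⁻¹ (algebraMap K L k))) = algebraMap K L k
    have h1 : τ⁻¹ (algebraMap K L k) = algebraMap K L ((τ⁻¹).restrictNormal K k) :=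
      (AlgEquiv.restrictNormal_commutes τ⁻¹ K k).symm
    rw [h1, g.commutes, ← AlgEquiv.restrictNormal_commutes, restrictNormal_mul_inv_apply])

theorem conjGal_restrictScalars (τ : Gal(L/ℚ)) (g : Gal(L/K)) :
    (conjGal τ g).restrictScalars ℚ = τ * g.restrictScalars ℚ * τ⁻¹ := by
  ext x
  rfl

theorem conjGal_apply (τ : Gal(L/ℚ)) (g : Gal(L/K)) (x : L) :
    conjGal τ g x = τ (g (τ⁻¹ x)) := rfl

theorem under_smul (τ : Gal(L/ℚ)) (𝔔 : Ideal (𝓞 L)) :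
    (τ • 𝔔).under (𝓞 K) = (τ.restrictNormal K) • (𝔔.under (𝓞 K)) := by
  ext x
  rw [Ideal.under_def, Ideal.mem_comap, Ideal.mem_pointwise_smul_iff_inv_smul_mem,
    Ideal.mem_pointwise_smul_iff_inv_smul_mem, Ideal.under_def, Ideal.mem_comap]
  have h : (τ.restrictNormal K)⁻¹ = (τ⁻¹).restrictNormal K :=
    (map_inv (AlgEquiv.restrictNormalHom (F := ℚ) (K₁ := L) K) τ).symm
  rw [h, algebraMap_restrict_smul]

theorem absNorm_smul (σ : Gal(K/ℚ)) (I : Ideal (𝓞 K)) :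
    Ideal.absNorm (σ • I) = Ideal.absNorm I := by
  rw [Ideal.absNorm_apply, Submodule.cardQuot_apply, Ideal.absNorm_apply,
    Submodule.cardQuot_apply]
  refine (Nat.card_congr (Ideal.quotientEquiv I (σ • I)
    (MulSemiringAction.toRingEquiv Gal(K/ℚ) (𝓞 K) σ) ?_).toEquiv).symm
  rw [Ideal.pointwise_smul_def]
  rfl

/-- the conjugate of a Frobenius element is a Frobenius element at the conjugate prime -/
theorem isFrobAt_conj (τ : Gal(L/ℚ)) {𝔮 : HeightOneSpectrum (𝓞 K)} {g : Gal(L/K)}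
    (hg : IsFrobAt K L 𝔮 g) (𝔮' : HeightOneSpectrum (𝓞 K))
    (h𝔮' : 𝔮'.asIdeal = (τ.restrictNormal K) • 𝔮.asIdeal) :
    IsFrobAt K L 𝔮' (conjGal τ g) := by
  obtain ⟨𝔔, h𝔔prime, hunder, hfrob⟩ := hg
  refine ⟨τ • 𝔔, (Ideal.IsPrime.smul_iff τ).mpr h𝔔prime, ?_, ?_⟩
  · rw [under_smul, hunder, h𝔮']
  · intro x
    rw [h𝔮', absNorm_smul, Ideal.mem_pointwise_smul_iff_inv_smul_mem]
    have h := hfrob (τ⁻¹ • x)
    have e : τ⁻¹ • (conjGal τ g • x - x ^ Ideal.absNorm 𝔮.asIdeal) =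
        g • (τ⁻¹ • x) - (τ⁻¹ • x) ^ Ideal.absNorm 𝔮.asIdeal := by
      rw [smul_sub, smul_pow']
      congr 1
      apply RingOfIntegers.ext
      simp [coe_smul_int, conjGal_apply]
    rw [e]
    exact h

theorem restrictScalars_pow (s : Gal(L/K)) (c : ℕ) :
    (s ^ c).restrictScalars ℚ = (s.restrictScalars ℚ) ^ c := by
  induction c with
  | zero => rfl
  | succ n ih =>
    rw [pow_succ, pow_succ, ← ih]
    rfl

end conj

/-! ### Elementary group theory and arithmetic -/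

section group

theorem exists_pow_eq {G : Type*} [Group G] [Finite G] {p : ℕ} (hp : p.Prime)
    (hG : Nat.card G = p) {s : G} (hs : s ≠ 1) (g : G) : ∃ k : ℕ, s ^ k = g := by
  have : Fact p.Prime := ⟨hp⟩
  have h1 : Subgroup.zpowers s = ⊤ := zpowers_eq_top_of_prime_card hG hs
  have h2 : g ∈ Subgroup.zpowers s := by rw [h1]; trivial
  rw [← mem_powers_iff_mem_zpowers] at h2
  exact (Submonoid.mem_powers_iff _ _).mp h2

theorem orderOf_eq_of_card {G : Type*} [Group G] [Finite G] {p : ℕ} (hp : p.Prime)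
    (hG : Nat.card G = p) {s : G} (hs : s ≠ 1) : orderOf s = p := by
  have : Fact p.Prime := ⟨hp⟩
  apply orderOf_eq_prime _ hs
  rw [← hG]
  exact pow_card_eq_one'

/-- if `x ^ p = 1` and `m ≡ n mod p` then `x ^ m = x ^ n` -/
theorem pow_eq_pow_of_modEq {X : Type*} [Group X] {x : X} {p m n : ℕ} (hx : x ^ p = 1)
    (h : m ≡ n [MOD p]) : x ^ m = x ^ n := by
  rw [pow_eq_pow_iff_modEq]
  exact h.of_dvd (orderOf_dvd_of_pow_eq_one hx)

/-- if `x ^ p = 1`, `x ^ n = 1` and `n` is prime to `p`, then `x = 1` -/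
theorem eq_one_of_pow_coprime {X : Type*} [Group X] {x : X} {p n : ℕ} (hx : x ^ p = 1)
    (hn : x ^ n = 1) (hcop : Nat.Coprime n p) : x = 1 := by
  have h1 : orderOf x ∣ Nat.gcd n p :=
    Nat.dvd_gcd (orderOf_dvd_of_pow_eq_one hn) (orderOf_dvd_of_pow_eq_one hx)
  rw [hcop.gcd_eq_one, Nat.dvd_one] at h1
  exact orderOf_eq_one_iff.mp h1

/-- `8 * ∑_{p/2 < c < p} c = (p - 1) (3 p - 1)` for odd `p` -/
theorem sum_upperHalf (m : ℕ) : 2 * ∑ c ∈ upperHalf (2 * m + 1), c = m * (3 * m + 1) := by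
  unfold upperHalf
  have h1 : (2 * m + 1) / 2 = m := by omega
  rw [h1, ← Finset.Ico_succ_left_eq_Ioo, Finset.sum_Ico_eq_sum_range]
  have h2 : 2 * m + 1 - (m + 1) = m := by omega
  rw [Order.succ_eq_add_one, h2, Finset.sum_add_distrib, Finset.sum_const, Finset.card_range,
    smul_eq_mul, mul_add]
  have h3 := Finset.sum_range_id_mul_two m
  have h4 : m * (m - 1) + m = m * m := by
    rcases m with _ | m
    · rfl
    · simp only [Nat.add_sub_cancel]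
      ring
  nlinarith [h3, h4]

theorem coprime_sum_upperHalf {p : ℕ} (hp : p.Prime) (hp3 : 3 ≤ p) :
    Nat.Coprime (∑ c ∈ upperHalf p, c) p := by
  obtain ⟨k, rfl⟩ : ∃ k, p = 2 * (k + 1) + 1 := by
    rcases hp.eq_two_or_odd with h | h
    · omega
    · exact ⟨p / 2 - 1, by omega⟩
  have h := sum_upperHalf (k + 1)
  rw [Nat.coprime_comm, Nat.Prime.coprime_iff_not_dvd hp]
  intro hdvd
  have h8 : (2 * (k + 1) + 1) ∣ 4 * ((k + 1) * (3 * (k + 1) + 1)) := by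
    rw [← h]
    exact Dvd.dvd.mul_left (Dvd.dvd.mul_left hdvd 2) 4
  have e : 4 * ((k + 1) * (3 * (k + 1) + 1)) = (2 * (k + 1) + 1) * (6 * k + 5) + 1 := by
    ring
  rw [e] at h8
  have h10 : (2 * (k + 1) + 1) ∣ 1 := (Nat.dvd_add_right (dvd_mul_right _ _)).mp h8
  have := Nat.le_of_dvd one_pos h10
  omega

end group

/-! ### Automorphisms of the cyclotomic field -/

section cyclo

variable {K : Type} [Field K] [NumberField K]

theorem exists_sigma {p : ℕ} (hp : p.Prime) [IsCyclotomicExtension {p} ℚ K] {ζ : K}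
    (hζ : IsPrimitiveRoot ζ p) {c : ℕ} (hc : Nat.Coprime c p) :
    ∃ σ : Gal(K/ℚ), σ ζ = ζ ^ c := by
  have : NeZero p := ⟨hp.ne_zero⟩
  have hζc : IsPrimitiveRoot (ζ ^ c) p := hζ.pow_of_coprime c hc
  have hirr : Irreducible (Polynomial.cyclotomic p ℚ) :=
    Polynomial.cyclotomic.irreducible_rat hp.pos
  have h1 := hζ.minpoly_eq_cyclotomic_of_irreducible hirr
  have h2 := hζc.minpoly_eq_cyclotomic_of_irreducible hirr
  have h3 : minpoly ℚ (hζ.powerBasis ℚ).gen = minpoly ℚ (hζc.powerBasis ℚ).gen := by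
    simp only [IsPrimitiveRoot.powerBasis_gen]
    rw [← h1, ← h2]
  refine ⟨(hζ.powerBasis ℚ).equivOfMinpoly (hζc.powerBasis ℚ) h3, ?_⟩
  have := (hζ.powerBasis ℚ).equivOfMinpoly_gen (hζc.powerBasis ℚ) h3
  simpa using this

end cyclo

/-! ### The main argument -/

section main

theorem main (hA : IfaceA) (hB : IfaceB) (hC : IfaceC) (hD : IfaceD) {p : ℕ} (hp : p.Prime)
    (hp3 : 3 ≤ p) {K L : Type} [Field K] [NumberField K] [Field L] [NumberField L]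
    [Algebra K L] [IsGalois K L] [IsGalois ℚ L] [IsCyclotomicExtension {p} ℚ K]
    (hdeg : Module.finrank K L = p) (hunr : UnramifiedEverywhere K L)
    (hact : ∀ (ζ : L) (τ : Gal(L/ℚ)) (g : Gal(L/K)) (a : ℕ), IsPrimitiveRoot ζ p →
      τ ζ = ζ ^ a → (τ * g.restrictScalars ℚ * τ⁻¹) ^ a = g.restrictScalars ℚ) : False := by
  classical
  have : NeZero p := ⟨hp.ne_zero⟩
  have hGalK : IsGalois ℚ K := IsCyclotomicExtension.isGalois {p} ℚ K
  have hcard : Nat.card Gal(L/K) = p := by rw [IsGalois.card_aut_eq_finrank, hdeg]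
  have : Fact p.Prime := ⟨hp⟩
  have hcyc : IsCyclic Gal(L/K) := isCyclic_of_prime_card hcard
  -- the quotient of the class group by the norm classes
  let Nm : Subgroup (ClassGroup (𝓞 K)) := normClassSubgroup K L
  let π : ClassGroup (𝓞 K) →* ClassGroup (𝓞 K) ⧸ Nm := QuotientGroup.mk' Nm
  have hπ : ∀ x, π x = 1 ↔ x ∈ Nm := fun x => QuotientGroup.eq_one_iff x
  have hπp : ∀ 𝔮 : HeightOneSpectrum (𝓞 K), π (primeClass 𝔮) ^ p = 1 := by
    intro 𝔮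
    rw [← map_pow, hπ, ← hdeg]
    exact primeClass_pow_mem 𝔮
  -- finiteness of the sets of primes of bounded norm
  have hfinT : ∀ M : ℕ,
      {𝔭 : HeightOneSpectrum (𝓞 K) | Ideal.absNorm 𝔭.asIdeal ≤ M}.Finite := by
    intro M
    have h2 : {I : Ideal (𝓞 K) | Ideal.absNorm I ≤ M}.Finite :=
      Ideal.finite_setOfPred_absNorm_le M
    refine Set.Finite.preimage (f := fun 𝔭 : HeightOneSpectrum (𝓞 K) => 𝔭.asIdeal) ?_ h2
    intro a _ b _ hab
    exact HeightOneSpectrum.ext hab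
  -- Step 1: two inert primes of degree one
  obtain ⟨𝔮₁, h𝔮₁T, hdeg₁, hin₁⟩ := Cheb.exists_degOne_isInert K L _ (hfinT p)
  obtain ⟨𝔮₂, h𝔮₂T, hdeg₂, hin₂⟩ :=
    Cheb.exists_degOne_isInert K L _ (hfinT (Ideal.absNorm 𝔮₁.asIdeal))
  have hq₁p : p < Ideal.absNorm 𝔮₁.asIdeal := not_le.mp h𝔮₁T
  have hq₂q₁ : Ideal.absNorm 𝔮₁.asIdeal < Ideal.absNorm 𝔮₂.asIdeal := not_le.mp h𝔮₂T
  have hq₁prime : (Ideal.absNorm 𝔮₁.asIdeal).Prime := hdeg₁
  have hq₂prime : (Ideal.absNorm 𝔮₂.asIdeal).Prime := hdeg₂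
  obtain ⟨s, hs⟩ := exists_isFrobAt (L := L) 𝔮₁
  have hs1 : s ≠ 1 := ne_one_of_isInert hin₁ (by omega) hs
  obtain ⟨g₂, hg₂⟩ := exists_isFrobAt (L := L) 𝔮₂
  have hg₂1 : g₂ ≠ 1 := ne_one_of_isInert hin₂ (by omega) hg₂
  have hords : orderOf s = p := orderOf_eq_of_card hp hcard hs1
  -- Artin crossing in the quotient
  have hDD : ∀ (𝔮a 𝔮b : HeightOneSpectrum (𝓞 K)),
      (Ideal.absNorm 𝔮a.asIdeal).Prime → (Ideal.absNorm 𝔮b.asIdeal).Prime →
      Ideal.absNorm 𝔮a.asIdeal ≠ Ideal.absNorm 𝔮b.asIdeal →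
      Ideal.absNorm 𝔮a.asIdeal ≠ p → Ideal.absNorm 𝔮b.asIdeal ≠ p →
      ∀ (t : Gal(L/K)) (k : ℕ), t ≠ 1 → IsFrobAt K L 𝔮a t → IsFrobAt K L 𝔮b (t ^ k) →
        π (primeClass 𝔮b) = π (primeClass 𝔮a) ^ k := by
    intro 𝔮a 𝔮b hqa hqb hab hap hbp t k ht hFa hFb
    have h := hD p hp hp3 K L hdeg hunr hact 𝔮a 𝔮b _ _ hqa hqb hab hap hbp rfl rfl t k ht hFa hFb
    rw [← hπ, map_mul, map_pow, map_inv, inv_pow, mul_inv_eq_one] at h
    exact h
  -- Step 2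
  have step2 : ∀ (𝔮 : HeightOneSpectrum (𝓞 K)), (Ideal.absNorm 𝔮.asIdeal).Prime →
      Ideal.absNorm 𝔮.asIdeal ≠ p → ∀ k : ℕ, IsFrobAt K L 𝔮 (s ^ k) →
      π (primeClass 𝔮) = π (primeClass 𝔮₁) ^ k := by
    intro 𝔮 hqprime hqp k hF
    by_cases hq : Ideal.absNorm 𝔮.asIdeal = Ideal.absNorm 𝔮₁.asIdeal
    · obtain ⟨m, hm⟩ := exists_pow_eq hp hcard hs1 g₂
      obtain ⟨j, hj⟩ := exists_pow_eq hp hcard hg₂1 s
      have h2 : π (primeClass 𝔮₂) = π (primeClass 𝔮₁) ^ m :=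
        hDD 𝔮₁ 𝔮₂ hq₁prime hq₂prime (by omega) (by omega) (by omega) s m hs1 hs (hm ▸ hg₂)
      have hF' : IsFrobAt K L 𝔮 (g₂ ^ (j * k)) := by
        rw [pow_mul, hj]
        exact hF
      have h3 := hDD 𝔮₂ 𝔮 hq₂prime hqprime (by rw [hq]; omega) (by omega) hqp g₂ (j * k)
        hg₂1 hg₂ hF'
      rw [h3, h2, ← pow_mul]
      have hmj : m * j ≡ 1 [MOD p] := by
        have h4 : s ^ (m * j) = s ^ 1 := by rw [pow_mul, hm, hj, pow_one]
        rw [pow_eq_pow_iff_modEq, hords] at h4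
        exact h4
      apply pow_eq_pow_of_modEq (hπp 𝔮₁)
      calc m * (j * k) = (m * j) * k := by ring
        _ ≡ 1 * k [MOD p] := hmj.mul_right k
        _ = k := one_mul k
    · exact hDD 𝔮₁ 𝔮 hq₁prime hqprime (Ne.symm hq) (by omega) hqp s k hs1 hs hF
  -- Step 3: Stickelberger
  obtain ⟨ζ, hζ⟩ : ∃ ζ : K, IsPrimitiveRoot ζ p :=
    IsCyclotomicExtension.exists_isPrimitiveRoot ℚ K (Set.mem_singleton p) hp.ne_zero
  have hζL : IsPrimitiveRoot (algebraMap K L ζ) p :=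
    hζ.map_of_injective (algebraMap K L).injective
  have hσex : ∀ c : ℕ, ∃ σ : Gal(K/ℚ), c ∈ upperHalf p → σ ζ = ζ ^ c := by
    intro c
    by_cases hc : c ∈ upperHalf p
    · have hcop : Nat.Coprime c p := by
        rw [upperHalf, Finset.mem_Ioo] at hc
        rw [Nat.coprime_comm, Nat.Prime.coprime_iff_not_dvd hp]
        exact Nat.not_dvd_of_pos_of_lt (by omega) hc.2
      obtain ⟨σ, hσ⟩ := exists_sigma hp hζ hcop
      exact ⟨σ, fun _ => hσ⟩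
    · exact ⟨1, fun h => absurd h hc⟩
  choose σ hσ using hσex
  have hCC := hC p hp hp3 K ζ hζ σ (fun c hc => hσ c hc) 𝔮₁ hq₁prime (by omega)
  have hprimes : ∀ c : ℕ, ∃ 𝔮c : HeightOneSpectrum (𝓞 K), c ∈ upperHalf p →
      𝔮c.asIdeal = (σ c)⁻¹ • 𝔮₁.asIdeal ∧
        π (primeClass 𝔮c) = π (primeClass 𝔮₁) ^ c := by
    intro c
    by_cases hc : c ∈ upperHalf p
    swap
    · exact ⟨𝔮₁, fun h => absurd h hc⟩
    have hN : Ideal.absNorm ((σ c)⁻¹ • 𝔮₁.asIdeal) = Ideal.absNorm 𝔮₁.asIdeal :=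
      absNorm_smul _ _
    let 𝔮c : HeightOneSpectrum (𝓞 K) :=
      ⟨(σ c)⁻¹ • 𝔮₁.asIdeal, (Ideal.IsPrime.smul_iff _).mpr 𝔮₁.isPrime, by
        intro h0
        rw [h0, Ideal.absNorm_bot] at hN
        exact hq₁prime.ne_zero hN.symm⟩
    refine ⟨𝔮c, fun _ => ⟨rfl, ?_⟩⟩
    obtain ⟨τ, hτ⟩ := AlgEquiv.restrictNormalHom_surjective (F := ℚ) (K₁ := K) L (σ c)⁻¹
    have hτ' : τ.restrictNormal K = (σ c)⁻¹ := hτ
    have hF : IsFrobAt K L 𝔮c (conjGal τ s) := isFrobAt_conj τ hs 𝔮c (by rw [hτ'])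
    have hτinv : (τ⁻¹).restrictNormal K = σ c := by
      have h1 := map_inv (AlgEquiv.restrictNormalHom (F := ℚ) (K₁ := L) K) τ
      have h2 : AlgEquiv.restrictNormalHom (F := ℚ) (K₁ := L) K τ = (σ c)⁻¹ := hτ
      rw [h2, inv_inv] at h1
      exact h1
    have hτζ : τ⁻¹ (algebraMap K L ζ) = (algebraMap K L ζ) ^ c := by
      rw [← AlgEquiv.restrictNormal_commutes, hτinv, hσ c hc, map_pow]
    have h5 := hact (algebraMap K L ζ) τ⁻¹ (conjGal τ s) c hζL hτζ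
    rw [conjGal_restrictScalars, inv_inv] at h5
    have h6 : τ⁻¹ * (τ * s.restrictScalars ℚ * τ⁻¹) * τ = s.restrictScalars ℚ := by group
    rw [h6, ← restrictScalars_pow, ← conjGal_restrictScalars] at h5
    have h7 : s ^ c = conjGal τ s := AlgEquiv.restrictScalars_injective ℚ h5
    rw [← h7] at hF
    exact step2 𝔮c (by show (Ideal.absNorm ((σ c)⁻¹ • 𝔮₁.asIdeal)).Prime; rw [hN]; exact hq₁prime)
      (by show Ideal.absNorm ((σ c)⁻¹ • 𝔮₁.asIdeal) ≠ p; rw [hN]; omega) c hF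
  choose 𝔮c h𝔮c using hprimes
  have hprod1 : ∏ c ∈ upperHalf p, primeClass (𝔮c c) = 1 := by
    have h1 : ∏ c ∈ upperHalf p, primeClass (𝔮c c) = ClassGroup.mk0
        (∏ c ∈ upperHalf p, (⟨(𝔮c c).asIdeal,
          mem_nonZeroDivisors_of_ne_zero (𝔮c c).ne_bot⟩ : (Ideal (𝓞 K))⁰)) := by
      rw [map_prod]
      rfl
    rw [h1, ClassGroup.mk0_eq_one_iff]
    have h2 : ((∏ c ∈ upperHalf p, (⟨(𝔮c c).asIdeal,
          mem_nonZeroDivisors_of_ne_zero (𝔮c c).ne_bot⟩ : (Ideal (𝓞 K))⁰) : (Ideal (𝓞 K))⁰) :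
          Ideal (𝓞 K)) = ∏ c ∈ upperHalf p, ((σ c)⁻¹ • 𝔮₁.asIdeal) := by
      rw [SubmonoidClass.coe_finsetProd]
      exact Finset.prod_congr rfl (fun c hc => (h𝔮c c hc).1)
    rw [h2]
    exact hCC
  have hprod2 : π (primeClass 𝔮₁) ^ (∑ c ∈ upperHalf p, c) = 1 := by
    rw [← Finset.prod_pow_eq_pow_sum]
    have h1 : ∏ c ∈ upperHalf p, π (primeClass 𝔮₁) ^ c =
        π (∏ c ∈ upperHalf p, primeClass (𝔮c c)) := by
      rw [map_prod]
      exact Finset.prod_congr rfl (fun c hc => ((h𝔮c c hc).2).symm)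
    rw [h1, hprod1, map_one]
  have hx₁ : π (primeClass 𝔮₁) = 1 :=
    eq_one_of_pow_coprime (hπp 𝔮₁) hprod2 (coprime_sum_upperHalf hp hp3)
  -- Step 4: the first inequality for `K / K`
  have hall : ∀ 𝔓 : HeightOneSpectrum (𝓞 K),
      𝔓 ∉ {𝔭 : HeightOneSpectrum (𝓞 K) | Ideal.absNorm 𝔭.asIdeal ≤ p} →
      Cheb.IsDegOne K 𝔓 → Cheb.SplitsCompletely K K 𝔓 → primeClass 𝔓 ∈ Nm := by
    intro 𝔓 hT hdeg1 _
    obtain ⟨g, hg⟩ := exists_isFrobAt (L := L) 𝔓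
    obtain ⟨k, hk⟩ := exists_pow_eq hp hcard hs1 g
    have hlt : p < Ideal.absNorm 𝔓.asIdeal := not_le.mp hT
    have h1 := step2 𝔓 hdeg1 (by omega) k (hk ▸ hg)
    rw [hx₁, one_pow] at h1
    exact (hπ _).mp h1
  have hidx := hA K K Nm _ (hfinT p) hall
  rw [Module.finrank_self] at hidx
  have hNmtop : Nm = ⊤ := by
    have hne : Nm.index ≠ 0 := Subgroup.index_ne_zero_of_finite
    exact Subgroup.index_eq_one.mp (by omega)
  exact hB p hp hp3 K L hdeg hunr hNmtop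

end main

end HeartF

/-- **F-FIN**: the heart of pillar P-CFT from the four interfaces. -/
theorem heart_of : IfaceA → IfaceB → IfaceC → IfaceD → Heart := by
  intro hA hB hC hD p hp hp3 K L _ _ _ _ _ _ _ _ hdeg hunr hact
  exact HeartF.main hA hB hC hD hp hp3 hdeg hunr hact

end Fermat.Agent.S14
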