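import Mathlib
import Fermat.Agent.S14.Iface

/-!
# P-CFT, module A-INEQ, part (P1): the product of Euler factors over all characters

For a finite commutative group `Y` and `y : Y` there are `d, k` with `d * k = |Y|` such that

  `∏ ψ : Y →* ℂˣ, (1 - ψ y * t) = (1 - t ^ d) ^ k`     (all `t : ℂ`),

and `d = 1` if `y = 1`.  (In fact `d = orderOf y`, but this is not needed for the first
inequality.)  Consequently, for real `0 ≤ t < 1`, the product over all characters of the Euler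
factors `(1 - ψ y * t)⁻¹` is the real number `((1 - t ^ d) ^ k)⁻¹ ≥ 1`.
-/

set_option autoImplicit false

open Polynomial

namespace Fermat.Agent.S14

/-- For a finite subgroup `H` of `ℂˣ` of order `d`: `∏_{ζ ∈ H} (x - ζ) = x ^ d - 1`. -/
theorem AINEQ9_prod_sub_subgroup (H : Subgroup ℂˣ) [Fintype H] (x : ℂ) :
    ∏ ζ : H, (x - ((ζ : ℂˣ) : ℂ)) = x ^ Fintype.card H - 1 := by
  classical
  have : IsCyclic H :=
    isCyclic_of_injective_ringHom ((Units.coeHom ℂ).comp H.subtype)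
      (Units.val_injective.comp Subtype.val_injective)
  obtain ⟨g, hg⟩ := IsCyclic.exists_generator (α := H)
  have hord : orderOf g = Fintype.card H := by
    rw [orderOf_eq_card_of_forall_mem_zpowers hg, Nat.card_eq_fintype_card]
  have hpos : 0 < Fintype.card H := Fintype.card_pos
  have hprim : IsPrimitiveRoot (((g : ℂˣ) : ℂ)) (Fintype.card H) := by
    have h1 : IsPrimitiveRoot g (Fintype.card H) := hord ▸ IsPrimitiveRoot.orderOf g
    have h2 : IsPrimitiveRoot (g : ℂˣ) (Fintype.card H) :=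
      h1.map_of_injective (f := H.subtype) Subtype.val_injective
    exact h2.map_of_injective (f := Units.coeHom ℂ) Units.val_injective
  have hpoly := X_pow_sub_one_eq_prod hpos hprim
  have heval := congrArg (Polynomial.eval x) hpoly
  rw [eval_sub, eval_pow, eval_X, eval_one, eval_prod] at heval
  rw [heval]
  -- reindex the product along `H → nthRootsFinset`
  have himg : (Finset.univ : Finset H).image (fun ζ : H ↦ ((ζ : ℂˣ) : ℂ)) =
      nthRootsFinset (Fintype.card H) (1 : ℂ) := by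
    apply Finset.eq_of_subset_of_card_le
    · intro z hz
      obtain ⟨ζ, -, rfl⟩ := Finset.mem_image.mp hz
      rw [mem_nthRootsFinset hpos]
      have h1 : ζ ^ Fintype.card H = 1 := pow_card_eq_one
      rw [← Units.val_pow_eq_pow_val, ← Subgroup.coe_pow, h1]
      rfl
    · rw [hprim.card_nthRootsFinset, Finset.card_image_of_injective _
        (fun a b hab ↦ Subtype.val_injective (Units.val_injective hab)), Finset.card_univ]
  rw [← himg, Finset.prod_image]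
  · simp
  · intro a _ b _ hab
    exact Subtype.val_injective (Units.val_injective hab)

/-- For a finite subgroup `H` of `ℂˣ` of order `d`: `∏_{ζ ∈ H} (1 - ζ t) = 1 - t ^ d`. -/
theorem AINEQ9_prod_one_sub_subgroup (H : Subgroup ℂˣ) [Fintype H] (t : ℂ) :
    ∏ ζ : H, (1 - ((ζ : ℂˣ) : ℂ) * t) = 1 - t ^ Fintype.card H := by
  have hpos : 0 < Fintype.card H := Fintype.card_pos
  by_cases ht : t = 0
  · subst ht
    simp [hpos.ne']
  · have h := AINEQ9_prod_sub_subgroup H t⁻¹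
    have h2 : ∏ ζ : H, (1 - ((ζ : ℂˣ) : ℂ) * t) = ∏ ζ : H, (t * (t⁻¹ - ((ζ : ℂˣ) : ℂ))) := by
      refine Finset.prod_congr rfl fun ζ _ ↦ ?_
      field_simp
    rw [h2, Finset.prod_mul_distrib, h, Finset.prod_const, Finset.card_univ, mul_sub, mul_one,
      inv_pow, mul_inv_cancel₀ (pow_ne_zero _ ht)]

/-- **(P1)** The product over all characters `ψ` of a finite commutative group `Y` of
`1 - ψ y * t` equals `(1 - t ^ d) ^ k` where `d * k = |Y|` (and `d = 1` if `y = 1`). -/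
theorem AINEQ9_prod_char (Y : Type*) [CommGroup Y] [Finite Y] [Fintype (Y →* ℂˣ)] (y : Y) :
    ∃ d k : ℕ, 0 < d ∧ d * k = Nat.card Y ∧ (y = 1 → d = 1) ∧
      ∀ t : ℂ, ∏ ψ : Y →* ℂˣ, (1 - ((ψ y : ℂˣ) : ℂ) * t) = (1 - t ^ d) ^ k := by
  classical
  let ev : (Y →* ℂˣ) →* ℂˣ := MonoidHom.eval y
  have : Fintype ev.range := Fintype.ofFinite _
  have : Fintype ev.ker := Fintype.ofFinite _
  have hcard : Fintype.card ev.range * Fintype.card ev.ker = Nat.card Y := by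
    rw [← CommGroup.card_monoidHom_of_hasEnoughRootsOfUnity Y ℂ,
      ev.ker.card_eq_card_quotient_mul_card_subgroup,
      Nat.card_congr (QuotientGroup.quotientKerEquivRange ev).toEquiv,
      Nat.card_eq_fintype_card, Nat.card_eq_fintype_card]
  refine ⟨Fintype.card ev.range, Fintype.card ev.ker, Fintype.card_pos, hcard, ?_, fun t ↦ ?_⟩
  · rintro rfl
    have hbot : ev.range = ⊥ := by
      rw [eq_bot_iff]
      rintro _ ⟨ψ, rfl⟩
      simp [ev]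
    rw [← Nat.card_eq_fintype_card, hbot]
    simp
  · -- fibres of `ev` over its range all have `|ker ev|` elements
    have hfib : ∀ ζ ∈ (Finset.univ : Finset (Y →* ℂˣ)).image ev,
        (Finset.univ.filter fun ψ : Y →* ℂˣ ↦ ev ψ = ζ).card = Fintype.card ev.ker := by
      intro ζ hζ
      obtain ⟨ψ₀, -, rfl⟩ := Finset.mem_image.mp hζ
      rw [MonoidHom.card_fiber_eq_of_mem_range ev ⟨ψ₀, rfl⟩ ⟨1, rfl⟩, map_one,
        ← Fintype.card_subtype]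
      exact Fintype.card_congr (Equiv.subtypeEquivRight fun ψ ↦ by rw [MonoidHom.mem_ker])
    have h1 : ∏ ψ : Y →* ℂˣ, (1 - ((ψ y : ℂˣ) : ℂ) * t) =
        ∏ ψ : Y →* ℂˣ, (fun ζ : ℂˣ ↦ 1 - (ζ : ℂ) * t) (ev ψ) := rfl
    rw [h1, Finset.prod_comp (fun ζ : ℂˣ ↦ 1 - (ζ : ℂ) * t) ev,
      Finset.prod_congr rfl fun ζ hζ ↦ by rw [hfib ζ hζ],
      Finset.prod_pow, ← AINEQ9_prod_one_sub_subgroup ev.range t]
    congr 1
    -- reindex `image ev univ` as the subgroup `ev.range`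
    refine (Finset.prod_bij (fun (ζ : ev.range) _ ↦ (ζ : ℂˣ)) ?_ ?_ ?_ ?_).symm
    · intro ζ _
      obtain ⟨ψ, hψ⟩ := ζ.2
      exact Finset.mem_image.mpr ⟨ψ, Finset.mem_univ _, hψ⟩
    · intro a _ b _ hab
      exact Subtype.ext hab
    · intro ζ hζ
      obtain ⟨ψ, -, rfl⟩ := Finset.mem_image.mp hζ
      exact ⟨⟨ev ψ, ψ, rfl⟩, Finset.mem_univ _, rfl⟩
    · intro ζ _
      rfl

/-- Real form of (P1): for real `t`, the product over all characters of the Euler factors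
`(1 - ψ y * t)⁻¹` is the real number `((1 - t ^ d) ^ k)⁻¹`. -/
theorem AINEQ9_prod_char_inv (Y : Type*) [CommGroup Y] [Finite Y] [Fintype (Y →* ℂˣ)] (y : Y) :
    ∃ d k : ℕ, 0 < d ∧ d * k = Nat.card Y ∧ (y = 1 → d = 1) ∧
      ∀ t : ℝ, ∏ ψ : Y →* ℂˣ, (1 - ((ψ y : ℂˣ) : ℂ) * (t : ℂ))⁻¹ =
        ((((1 - t ^ d) ^ k)⁻¹ : ℝ) : ℂ) := by
  obtain ⟨d, k, hd, hdk, h1, h⟩ := AINEQ9_prod_char Y y
  refine ⟨d, k, hd, hdk, h1, fun t ↦ ?_⟩
  rw [Finset.prod_inv_distrib, h]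
  push_cast
  rfl

/-- For `0 ≤ t < 1`, `d > 0`: `1 ≤ ((1 - t ^ d) ^ k)⁻¹`. -/
theorem AINEQ9_one_le_inv {t : ℝ} (h0 : 0 ≤ t) (h1 : t < 1) {d : ℕ} (hd : 0 < d) (k : ℕ) :
    1 ≤ ((1 - t ^ d) ^ k)⁻¹ := by
  have h2 : t ^ d < 1 := pow_lt_one₀ h0 h1 hd.ne'
  have h3 : 0 ≤ t ^ d := pow_nonneg h0 d
  have h4 : 0 < 1 - t ^ d := by linarith
  have h5 : (1 - t ^ d) ^ k ≤ 1 := pow_le_one₀ h4.le (by linarith)
  exact (one_le_inv₀ (pow_pos h4 k)).mpr h5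

section ClassGroup

open NumberField IsDedekindDomain

variable (F : Type*) [Field F] [NumberField F] (S' : Subgroup (ClassGroup (𝓞 F)))

/-- The character of the class group induced by a character of the quotient by `S'`. -/
noncomputable def AINEQ9_chi (ψ : (ClassGroup (𝓞 F) ⧸ S') →* ℂˣ) : ClassGroup (𝓞 F) →* ℂˣ :=
  ψ.comp (QuotientGroup.mk' S')

variable {F S'} in
omit [NumberField F] in
theorem AINEQ9_chi_apply (ψ : (ClassGroup (𝓞 F) ⧸ S') →* ℂˣ) (c : ClassGroup (𝓞 F)) :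
    AINEQ9_chi F S' ψ c = ψ (c : ClassGroup (𝓞 F) ⧸ S') := rfl

variable {F S'} in
omit [NumberField F] in
theorem AINEQ9_chi_eq_one_iff (ψ : (ClassGroup (𝓞 F) ⧸ S') →* ℂˣ) :
    AINEQ9_chi F S' ψ = 1 ↔ ψ = 1 := by
  constructor
  · intro h
    ext c
    have := DFunLike.congr_fun h c
    simpa [AINEQ9_chi] using congrArg Units.val this
  · rintro rfl
    rfl

/-- The real Euler factor at `𝔓` of `Z(s) = ∏_ψ L(s, χ_ψ)`. -/
noncomputable def AINEQ9_factor (s : ℝ) (𝔓 : HeightOneSpectrum (𝓞 F)) : ℝ :=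
  haveI : Fintype ((ClassGroup (𝓞 F) ⧸ S') →* ℂˣ) := Fintype.ofFinite _
  (∏ ψ : (ClassGroup (𝓞 F) ⧸ S') →* ℂˣ,
    (1 - ((AINEQ9_chi F S' ψ (primeClass 𝔓) : ℂˣ) : ℂ) *
      (((Ideal.absNorm 𝔓.asIdeal : ℝ) ^ (-s) : ℝ) : ℂ))⁻¹).re

/-- The product over all characters `ψ` of `Cl(F) / S'` of the Euler factors of `L(s, χ_ψ)` at
`𝔓` is (the coercion of) the real number `AINEQ9_factor F S' s 𝔓`. -/
theorem AINEQ9_prod_factor [Fintype ((ClassGroup (𝓞 F) ⧸ S') →* ℂˣ)] (s : ℝ)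
    (𝔓 : HeightOneSpectrum (𝓞 F)) :
    ∏ ψ : (ClassGroup (𝓞 F) ⧸ S') →* ℂˣ,
      (1 - ((AINEQ9_chi F S' ψ (primeClass 𝔓) : ℂˣ) : ℂ) *
        (((Ideal.absNorm 𝔓.asIdeal : ℝ) ^ (-s) : ℝ) : ℂ))⁻¹ =
      ((AINEQ9_factor F S' s 𝔓 : ℝ) : ℂ) := by
  obtain ⟨d, k, -, -, -, h⟩ := AINEQ9_prod_char_inv (ClassGroup (𝓞 F) ⧸ S')
    ((primeClass 𝔓 : ClassGroup (𝓞 F)) : ClassGroup (𝓞 F) ⧸ S')
  have h' := h ((Ideal.absNorm 𝔓.asIdeal : ℝ) ^ (-s))
  have e : AINEQ9_factor F S' s 𝔓 = ((1 - ((Ideal.absNorm 𝔓.asIdeal : ℝ) ^ (-s)) ^ d) ^ k)⁻¹ := by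
    unfold AINEQ9_factor
    rw [← Complex.ofReal_re (((1 - ((Ideal.absNorm 𝔓.asIdeal : ℝ) ^ (-s)) ^ d) ^ k)⁻¹), ← h']
    congr 1
    refine Finset.prod_congr ?_ fun _ _ ↦ rfl
    ext ψ
    simp
  rw [e, ← h']
  rfl

theorem AINEQ9_absNorm_rpow_lt_one {s : ℝ} (hs : 0 < s) (𝔓 : HeightOneSpectrum (𝓞 F)) :
    (Ideal.absNorm 𝔓.asIdeal : ℝ) ^ (-s) < 1 := by
  have h2 : (1 : ℝ) < (Ideal.absNorm 𝔓.asIdeal : ℝ) := by
    have h1 : Ideal.absNorm 𝔓.asIdeal ≠ 1 := by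
      rw [Ne, Ideal.absNorm_eq_one_iff]
      exact 𝔓.isPrime.ne_top
    have h0 : Ideal.absNorm 𝔓.asIdeal ≠ 0 := by
      rw [Ne, Ideal.absNorm_eq_zero_iff]
      exact 𝔓.ne_bot
    have : 1 < Ideal.absNorm 𝔓.asIdeal := by omega
    exact_mod_cast this
  exact Real.rpow_lt_one_of_one_lt_of_neg h2 (by linarith)

/-- Every Euler factor of `Z(s)` is `≥ 1`. -/
theorem AINEQ9_one_le_factor {s : ℝ} (hs : 0 < s) (𝔓 : HeightOneSpectrum (𝓞 F)) :
    1 ≤ AINEQ9_factor F S' s 𝔓 := by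
  let _ : Fintype ((ClassGroup (𝓞 F) ⧸ S') →* ℂˣ) := Fintype.ofFinite _
  obtain ⟨d, k, hd, -, -, h⟩ := AINEQ9_prod_char_inv (ClassGroup (𝓞 F) ⧸ S')
    ((primeClass 𝔓 : ClassGroup (𝓞 F)) : ClassGroup (𝓞 F) ⧸ S')
  have h' := h ((Ideal.absNorm 𝔓.asIdeal : ℝ) ^ (-s))
  have e := (AINEQ9_prod_factor F S' s 𝔓).symm.trans h'
  rw [Complex.ofReal_inj.mp e]
  exact AINEQ9_one_le_inv (by positivity) (AINEQ9_absNorm_rpow_lt_one F hs 𝔓) hd k

/-- If the class of `𝔓` lies in `S'`, the Euler factor of `Z(s)` at `𝔓` is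
`(1 - N𝔓 ^ (-s)) ^ (-h)`, `h = S'.index`. -/
theorem AINEQ9_factor_of_mem (s : ℝ) (𝔓 : HeightOneSpectrum (𝓞 F)) (h𝔓 : primeClass 𝔓 ∈ S') :
    AINEQ9_factor F S' s 𝔓 = ((1 - (Ideal.absNorm 𝔓.asIdeal : ℝ) ^ (-s)) ^ S'.index)⁻¹ := by
  let _ : Fintype ((ClassGroup (𝓞 F) ⧸ S') →* ℂˣ) := Fintype.ofFinite _
  obtain ⟨d, k, hd, hdk, h1, h⟩ := AINEQ9_prod_char_inv (ClassGroup (𝓞 F) ⧸ S')
    ((primeClass 𝔓 : ClassGroup (𝓞 F)) : ClassGroup (𝓞 F) ⧸ S')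
  have h' := h ((Ideal.absNorm 𝔓.asIdeal : ℝ) ^ (-s))
  have e := (AINEQ9_prod_factor F S' s 𝔓).symm.trans h'
  have hd1 : d = 1 := h1 ((QuotientGroup.eq_one_iff _).mpr h𝔓)
  have hk : k = S'.index := by
    rw [hd1, one_mul] at hdk
    rw [hdk, Subgroup.index]
  rw [Complex.ofReal_inj.mp e, hd1, hk, pow_one]

/-- Lower bound for the Euler factor at a prime whose class lies in `S'`:
`1 + h * N𝔓 ^ (-s) ≤` Euler factor, hence also `h * N𝔓 ^ (-s) ≤ log` (Euler factor). -/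
theorem AINEQ9_mul_le_log_factor {s : ℝ} (hs : 0 < s) (𝔓 : HeightOneSpectrum (𝓞 F))
    (h𝔓 : primeClass 𝔓 ∈ S') :
    (S'.index : ℝ) * (Ideal.absNorm 𝔓.asIdeal : ℝ) ^ (-s) ≤
      Real.log (AINEQ9_factor F S' s 𝔓) := by
  rw [AINEQ9_factor_of_mem F S' s 𝔓 h𝔓, Real.log_inv, Real.log_pow]
  have h1 := AINEQ9_absNorm_rpow_lt_one F hs 𝔓
  have h0 : (0 : ℝ) ≤ (Ideal.absNorm 𝔓.asIdeal : ℝ) ^ (-s) := by positivity
  have h2 : Real.log (1 - (Ideal.absNorm 𝔓.asIdeal : ℝ) ^ (-s)) ≤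
      -(Ideal.absNorm 𝔓.asIdeal : ℝ) ^ (-s) := by
    have := Real.log_le_sub_one_of_pos (show 0 < 1 - (Ideal.absNorm 𝔓.asIdeal : ℝ) ^ (-s) by
      linarith)
    linarith
  have h3 : (0 : ℝ) ≤ (S'.index : ℝ) := Nat.cast_nonneg _
  nlinarith

end ClassGroup

end Fermat.Agent.S14
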