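import Mathlib
import Fermat.Agent.S14.GlueIface

/-!
# Pillar P-CFT (S14): the assembly of S14 from the interfaces

`extVanishingCts_of_ifaces` shows that the interface theorems delivered by the module owners
compose to `ExtCitation.ExtVanishingCts p`.
-/

set_option autoImplicit false

namespace Fermat.Agent.S14

/-- The complete dependency chain of the pillar, as one implication. -/
theorem extVanishingCts_of_ifaces
    (hEP : IfaceEP) (hBdd : IfaceBdd) (hAux : IfaceAux) (hB : IfaceB) (hC : IfaceC)
    (hA_of : IfaceEP → IfaceBdd → IfaceA)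
    (hD_of : IfaceA → IfaceAux → IfaceD)
    (hHeart_of : IfaceA → IfaceB → IfaceC → IfaceD → Heart)
    (hFin_of : Heart → IfaceGlueFin)
    (hCoc : IfaceGlueCoc)
    {p : ℕ} [Fact p.Prime] (h3 : 3 ≤ p) : ExtCitation.ExtVanishingCts p :=
  have hA : IfaceA := hA_of hEP hBdd
  have hD : IfaceD := hD_of hA hAux
  extVanishingCts_of hCoc (hFin_of (hHeart_of hA hB hC hD)) h3

end Fermat.Agent.S14
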